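/-
GATE-H (S19) / node GAL, BASE LAYER (helper18): automorphisms of a reduction datum.

Abstract frame of `GH/Vocab.lean`: `R : RedData K F k Ft`, `H : LSpaceHyp R g c`.  A `RedAut R` is a
semilinear automorphism `σ` of `F / K` preserving the Gauss valuation ring `R.Rw`, together with a
semilinear automorphism `b` of `Ft / k` such that `red (σ x) = b (red x)`  (e.g. an element of the
decomposition group of the place of `ℚ̄` under `R.A`, acting on `ℚ̄(X₀(N))` and on the special fibre;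
`b = 1` for inertia).

* general transport under `SemilinearAut`: `smul_mem_riemannRochSpace_smul_iff`, `smul_le_smul_iff`,
  `valuation_smul_lt_one_iff`;
* `RedAut.smul_mem_redSpace_smul_iff`, `RedAut.isMinDiv_smul`;
* **`RedAut.rOf_smul : rOf H (σ • P) = b • rOf H P`** (the place reduction map is equivariant),
  `RedAut.mapDomain_rOf_smul`;
* the vocabulary is equivariant: `mem_disc_smul_iff`, `mem_Odisc_smul_iff`, `valueAt_smul_iff`,
  `mem_kerRed_smul`.
-/
import Mathlib
import Fermat.Agent.GH.Vocab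
import Fermat.Prelude.Def_AlgebraicCurve_BaseChangeGalois

set_option autoImplicit false

noncomputable section

open AlgebraicCurve
open scoped Pointwise

namespace Fermat.Agent.GH.Gal

open Fermat.Agent.RRh45 Fermat.Agent.GJ.S37MinDiv Fermat.Agent.GJ.J1 Fermat.Agent.GJ.S37LSpace
  Fermat.Agent.GJ.S37ROfSurj Fermat.Agent.GH

/-! ### Transport under a semilinear automorphism (any function field) -/

section Semilinear

variable {K F : Type*} [Field K] [Field F] [Algebra K F] (g : SemilinearAut K F)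

theorem ord_smul' (v : Place K F) (f : F) : v.ord (g • f) = (g⁻¹ • v).ord f := by
  have h := SemilinearAut.ord_smul g (g⁻¹ • v) f
  rwa [smul_inv_smul] at h

/-- `L(g D) = g L(D)` -/
theorem smul_mem_riemannRochSpace_smul_iff (D : Divisor K F) (f : F) :
    g • f ∈ riemannRochSpace (g • D) ↔ f ∈ riemannRochSpace D := by
  rw [mem_riemannRochSpace_iff, mem_riemannRochSpace_iff]
  constructor
  · intro h v
    have h1 := h (g • v)
    rw [SemilinearAut.divisor_smul_apply_smul, SemilinearAut.ord_smul] at h1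
    rcases h1 with h0 | h1
    · exact Or.inl ((smul_eq_zero_iff_eq g).1 h0)
    · exact Or.inr h1
  · intro h v
    rcases h (g⁻¹ • v) with h0 | h1
    · exact Or.inl ((smul_eq_zero_iff_eq g).2 h0)
    · right
      rw [SemilinearAut.divisor_smul_apply, ord_smul']
      exact h1

theorem mem_riemannRochSpace_smul_iff (D : Divisor K F) (f : F) :
    f ∈ riemannRochSpace (g • D) ↔ g⁻¹ • f ∈ riemannRochSpace D := by
  rw [← smul_mem_riemannRochSpace_smul_iff g D (g⁻¹ • f), smul_inv_smul]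

theorem smul_le_smul_iff (D E : Divisor K F) : g • D ≤ g • E ↔ D ≤ E := by
  rw [Finsupp.le_def, Finsupp.le_def]
  constructor
  · intro h v
    have := h (g • v)
    rwa [SemilinearAut.divisor_smul_apply_smul, SemilinearAut.divisor_smul_apply_smul] at this
  · intro h v
    rw [SemilinearAut.divisor_smul_apply, SemilinearAut.divisor_smul_apply]
    exact h _

theorem smul_le_iff (D E : Divisor K F) : g • D ≤ E ↔ D ≤ g⁻¹ • E := by
  rw [← smul_le_smul_iff g D (g⁻¹ • E), smul_inv_smul]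

/-- membership in the maximal ideal of a valuation ring is transported -/
theorem valuation_smul_lt_one_iff (A : ValuationSubring F) (x : F) :
    (g • A).valuation (g • x) < 1 ↔ A.valuation x < 1 := by
  have key : ∀ (B : ValuationSubring F) (y : F), B.valuation y < 1 ↔ y = 0 ∨ y⁻¹ ∉ B := by
    intro B y
    by_cases hy : y = 0
    · subst hy
      simp
    · rw [← not_le, ← B.valuation_le_one_iff y⁻¹, map_inv₀,
        inv_le_one₀ (zero_lt_iff.2 ((Valuation.ne_zero_iff _).2 hy))]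
      simp [hy]
  rw [key, key, smul_eq_zero_iff_eq, ← smul_inv'' g x]
  rw [ValuationSubring.smul_mem_pointwise_smul_iff]

end Semilinear

/-! ### Automorphisms of a reduction datum -/

variable {K F k Ft : Type*} [Field K] [Field F] [Algebra K F] [Field k] [Field Ft] [Algebra k Ft]

/-- an automorphism of the reduction datum `R`: `σ` on the generic fibre preserving the Gauss ring,
`b` on the special fibre, compatible with the reduction map. -/
structure RedAut (R : RedData K F k Ft) where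
  /-- the automorphism of the generic fibre -/
  σ : SemilinearAut K F
  /-- the induced automorphism of the special fibre -/
  b : SemilinearAut k Ft
  mem_Rw : ∀ x : F, x ∈ R.Rw → σ • x ∈ R.Rw
  mem_Rw' : ∀ x : F, σ • x ∈ R.Rw → x ∈ R.Rw
  red_smul : ∀ (x : F) (hx : x ∈ R.Rw), R.red ⟨σ • x, mem_Rw x hx⟩ = b • R.red ⟨x, hx⟩

namespace RedAut

variable {R : RedData K F k Ft} (φ : RedAut R)

theorem smul_mem_Rw_iff (x : F) : φ.σ • x ∈ R.Rw ↔ x ∈ R.Rw := ⟨φ.mem_Rw' x, φ.mem_Rw x⟩

theorem inv_smul_mem_Rw (x : F) (hx : x ∈ R.Rw) : φ.σ⁻¹ • x ∈ R.Rw :=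
  φ.mem_Rw' _ (by rwa [smul_inv_smul])

theorem red_inv_smul (x : F) (hx : x ∈ R.Rw) :
    R.red ⟨φ.σ⁻¹ • x, φ.inv_smul_mem_Rw x hx⟩ = φ.b⁻¹ • R.red ⟨x, hx⟩ := by
  have h := φ.red_smul (φ.σ⁻¹ • x) (φ.inv_smul_mem_Rw x hx)
  have h2 : (⟨φ.σ • φ.σ⁻¹ • x, φ.mem_Rw _ (φ.inv_smul_mem_Rw x hx)⟩ : R.Rw) = ⟨x, hx⟩ :=
    Subtype.ext (smul_inv_smul _ _)
  rw [h2] at h
  rw [h, inv_smul_smul]

/-- the inverse automorphism -/
def inv : RedAut R where
  σ := φ.σ⁻¹
  b := φ.b⁻¹
  mem_Rw := φ.inv_smul_mem_Rw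
  mem_Rw' x hx := by
    have := φ.mem_Rw _ hx
    rwa [smul_inv_smul] at this
  red_smul := φ.red_inv_smul

/-- `b • redSpace D = redSpace (σ D)` -/
theorem smul_mem_redSpace_smul_iff (D : Divisor K F) (xt : Ft) :
    φ.b • xt ∈ redSpace R (φ.σ • D) ↔ xt ∈ redSpace R D := by
  constructor
  · rintro ⟨y, hy, hyt⟩
    refine ⟨⟨φ.σ⁻¹ • (y : F), φ.inv_smul_mem_Rw _ y.2⟩, ?_, ?_⟩
    · exact (mem_riemannRochSpace_smul_iff φ.σ D (y : F)).1 hy
    · rw [φ.red_inv_smul (y : F) y.2]
      show φ.b⁻¹ • R.red y = xt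
      rw [hyt, inv_smul_smul]
  · rintro ⟨x, hx, rfl⟩
    exact ⟨⟨φ.σ • (x : F), φ.mem_Rw _ x.2⟩,
      (smul_mem_riemannRochSpace_smul_iff φ.σ D (x : F)).2 hx, φ.red_smul (x : F) x.2⟩

theorem mem_redSpace_smul_iff (D : Divisor K F) (yt : Ft) :
    yt ∈ redSpace R (φ.σ • D) ↔ φ.b⁻¹ • yt ∈ redSpace R D := by
  rw [← φ.smul_mem_redSpace_smul_iff D (φ.b⁻¹ • yt), smul_inv_smul]

/-- minimal divisors of reduced spaces are transported -/
theorem isMinDiv_smul {D : Divisor K F} {E : Divisor k Ft} (h : IsMinDiv (redSpace R D) E) :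
    IsMinDiv (redSpace R (φ.σ • D)) (φ.b • E) := by
  refine ⟨fun yt hyt => ?_, fun E' hE' => ?_⟩
  · have h1 : φ.b⁻¹ • yt ∈ riemannRochSpace E := h.1 ((φ.mem_redSpace_smul_iff D yt).1 hyt)
    exact (mem_riemannRochSpace_smul_iff φ.b E yt).2 h1
  · rw [smul_le_iff]
    refine h.2 _ fun xt hxt => ?_
    have h1 : φ.b • xt ∈ riemannRochSpace E' := hE' ((φ.smul_mem_redSpace_smul_iff D xt).2 hxt)
    rw [mem_riemannRochSpace_smul_iff, inv_inv]
    exact h1

/-- values are transported: `(σ e)(σ P) = σ (e(P))` -/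
theorem valueAt_smul_iff (P : Place K F) (e : F) (a : K) :
    ValueAt (φ.σ • P) (φ.σ • e) (SemilinearAut.baseAut φ.σ a) ↔ ValueAt P e a := by
  unfold ValueAt
  rw [SemilinearAut.smul_toValuationSubring, ← SemilinearAut.smul_algebraMap, ← smul_sub]
  exact valuation_smul_lt_one_iff φ.σ _ _

variable {g c : ℤ}
variable [FiniteResidues K F] [HasPrincipalDivisors K F] [Nonempty (Place K F)]
variable [FiniteResidues k Ft] [HasPrincipalDivisors k Ft] [Nonempty (Place k Ft)]
variable [Infinite k]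

/-- **the place reduction map is equivariant**: `r (σ P) = b (r P)`. -/
theorem rOf_smul (H : LSpaceHyp R g c) (P : Place K F) : rOf H (φ.σ • P) = φ.b • rOf H P := by
  classical
  have hc := H.c_nonneg
  set n : ℕ := (c + 1).toNat with hn
  have hnc : (n : ℤ) = c + 1 := Int.toNat_of_nonneg (by omega)
  have hn0 : (n : ℤ) ≠ 0 := by omega
  have hD : ∀ P' : Place K F, (0 : Divisor K F) ≤ Finsupp.single P' (n : ℤ) := fun P' =>
    Finsupp.single_nonneg.mpr (by positivity)
  have hdeg : ∀ P' : Place K F, c + 1 ≤ Divisor.degree (Finsupp.single P' (n : ℤ)) := fun P' => by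
    rw [degree_single_nat H]; omega
  have h1 := (redSpace_eq H (hD P) (hdeg P)).1
  have h2 := (redSpace_eq H (hD (φ.σ • P)) (hdeg (φ.σ • P))).1
  rw [Finsupp.mapDomain_single] at h1 h2
  have h3 := φ.isMinDiv_smul h1
  rw [SemilinearAut.smul_single, SemilinearAut.smul_single] at h3
  have h4 := h2.unique h3
  exact (Finsupp.single_left_inj hn0).1 h4

theorem mapDomain_rOf_smul (H : LSpaceHyp R g c) (D : Divisor K F) :
    Finsupp.mapDomain (rOf H) (φ.σ • D) = φ.b • Finsupp.mapDomain (rOf H) D := by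
  rw [SemilinearAut.divisor_smul_def, SemilinearAut.divisor_smul_def, ← Finsupp.mapDomain_comp,
    ← Finsupp.mapDomain_comp]
  congr 1
  funext P
  exact φ.rOf_smul H P

/-! ### the vocabulary of `GH/Vocab.lean` is equivariant -/

theorem mem_disc_smul_iff (H : LSpaceHyp R g c) (Q : Place k Ft) (P : Place K F) :
    φ.σ • P ∈ disc H (φ.b • Q) ↔ P ∈ disc H Q := by
  show rOf H (φ.σ • P) = φ.b • Q ↔ rOf H P = Q
  rw [φ.rOf_smul H P]
  exact (MulAction.injective φ.b).eq_iff

theorem mem_disc_smul_iff' (H : LSpaceHyp R g c) (Q : Place k Ft) (P' : Place K F) :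
    P' ∈ disc H (φ.b • Q) ↔ φ.σ⁻¹ • P' ∈ disc H Q := by
  rw [← φ.mem_disc_smul_iff H Q (φ.σ⁻¹ • P'), smul_inv_smul]

theorem mem_Odisc_smul_iff (H : LSpaceHyp R g c) (Q : Place k Ft) (e : F) :
    φ.σ • e ∈ Odisc H (φ.b • Q) ↔ e ∈ Odisc H Q := by
  constructor
  · rintro ⟨h1, h2⟩
    refine ⟨(φ.smul_mem_Rw_iff e).1 h1, fun P hP => ?_⟩
    have h3 := h2 (φ.σ • P) ((φ.mem_disc_smul_iff H Q P).2 hP)
    rw [SemilinearAut.smul_toValuationSubring] at h3
    exact (ValuationSubring.smul_mem_pointwise_smul_iff).1 h3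
  · rintro ⟨h1, h2⟩
    refine ⟨φ.mem_Rw e h1, fun P' hP' => ?_⟩
    have h3 := h2 (φ.σ⁻¹ • P') ((φ.mem_disc_smul_iff' H Q P').1 hP')
    have h4 : P'.toValuationSubring = φ.σ • (φ.σ⁻¹ • P').toValuationSubring := by
      rw [← SemilinearAut.smul_toValuationSubring, smul_inv_smul]
    rw [h4]
    exact (ValuationSubring.smul_mem_pointwise_smul_iff).2 h3

/-- the kernel of reduction is stable -/
theorem mem_kerRed_smul (H : LSpaceHyp R g c) {ξ : Pic0 K F} (hξ : ξ ∈ KerRed H) :
    φ.σ • ξ ∈ KerRed H := by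
  obtain ⟨D, rfl, hD⟩ := hξ
  refine ⟨SemilinearAut.degZeroSMulHom φ.σ D, (SemilinearAut.pic0_smul_mk φ.σ D).symm, ?_⟩
  rw [SemilinearAut.coe_degZeroSMulHom, φ.mapDomain_rOf_smul H]
  exact SemilinearAut.smul_mem_principal φ.b hD

end RedAut

end Fermat.Agent.GH.Gal
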