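/-
GATE-H (S19) / node GAL (helper18): the decomposition group acts on the Gauss reduction datum.

Setting of `GJ/J1/Val/GaussRedData.lean`: `L / ℚ` a field, `A` a valuation subring, `F₀` a `ℚ`-form
(intermediate field of `ℚ((q))`), `F = laurentBaseChange L F₀ ⊂ L((q))` with the Gauss fraction
property, `redData A F hGF : RedData L F k (Fres A F hGF)`.  For `σ ∈ Aut(L/ℚ)` in the decomposition
group of `A`:

* `resAut A σ hσ : k ≃+* k` the induced automorphism of the residue field;
* the coefficientwise action of `σ` on `F` (the prelude's `arithmeticGalois F₀ σ`) preserves the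
  Gauss ring and `red (σ x) = σ̄ (red x)` coefficientwise (`smul_mem_Rw`, `redL_smul`);
* `decompRedAut A F₀ hGF σ hσ : RedAut (redData A F hGF)` (`GH/Gal/RedAut.lean`);
* for `σ` in the inertia group the residue part is trivial: `decompRedAut_b_of_inertia`, hence
  `rOf_smul_of_inertia : rOf H (σ • P) = rOf H P` — inertia preserves every residue disc.

Specialisation: `L = ℚ̄`, `F₀ = modularFunctionFieldFull N`, `redDataBar N A`.
-/
import Mathlib
import Fermat.Agent.GH.Gal.RedAut
import Fermat.Agent.GJ.J1.Val.GaussRedData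
import Fermat.Agent.GJ.Kum.ESKummer
import Fermat.Prelude.Def_ModularCurve_ArithmeticGalois

set_option autoImplicit false

noncomputable section

open AlgebraicCurve HahnSeries ModularCurve IsLocalRing

namespace Fermat.Agent.GH.Gal

open Fermat.Agent.GJ.J1 Fermat.Agent.GJ.J1.Val Fermat.Agent.GJ.Kum Fermat.Agent.GJ.S37LSpace
  Fermat.Agent.RRh45

section Generic

variable {L : Type*} [Field L] [Algebra ℚ L] (A : ValuationSubring L)

/-- the automorphism of the residue field induced by an element of the decomposition group -/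
def resAut (σ : L ≃ₐ[ℚ] L) (hσ : σ ∈ A.decompositionSubgroup ℚ) :
    ResidueField A ≃+* ResidueField A :=
  MulSemiringAction.toRingEquiv (A.decompositionSubgroup ℚ) (ResidueField A) ⟨σ, hσ⟩

theorem residue_resA (σ : L ≃ₐ[ℚ] L) (hσ : σ ∈ A.decompositionSubgroup ℚ) (x : A) :
    residue A (resA A σ hσ x) = resAut A σ hσ (residue A x) := by
  show residue A (resA A σ hσ x) = (⟨σ, hσ⟩ : A.decompositionSubgroup ℚ) • residue A x
  rw [← IsLocalRing.ResidueField.residue_smul]
  rfl

theorem resAut_of_inertia {σ : L ≃ₐ[ℚ] L} (hσ : σ ∈ A.inertiaSubgroupIn ℚ) (r : ResidueField A) :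
    resAut A σ (Fermat.Agent.S05.mem_decompositionSubgroup_of_mem_inertiaSubgroupIn hσ) r = r := by
  obtain ⟨x, rfl⟩ := residue_surjective r
  rw [← residue_resA, residue_resA_of_inertia A hσ x]

variable (F₀ : IntermediateField ℚ (LaurentSeries ℚ))
variable (hGF : HasGaussFrac A (laurentBaseChange L F₀))

/-- fractions are transported by the coefficientwise action -/
theorem isFrac_coeffMap (σ : L ≃ₐ[ℚ] L) (hσ : σ ∈ A.decompositionSubgroup ℚ)
    {x : LaurentSeries L} {a b : LaurentSeries A}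
    (h : IsFrac A (laurentBaseChange L F₀) x a b) :
    IsFrac A (laurentBaseChange L F₀) (coeffMap (σ : L →+* L) x)
      (coeffMap (resA A σ hσ) a) (coeffMap (resA A σ hσ) b) := by
  obtain ⟨ha, hb, hb0, hx⟩ := h
  refine ⟨?_, ?_, ?_, ?_⟩
  · show coeffMap A.subtype (coeffMap (resA A σ hσ) a) ∈ _
    rw [coeffMap_subtype_resA]
    exact coeffMap_mem_laurentBaseChange σ ha
  · show coeffMap A.subtype (coeffMap (resA A σ hσ) b) ∈ _
    rw [coeffMap_subtype_resA]
    exact coeffMap_mem_laurentBaseChange σ hb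
  · show coeffMap (residue A) (coeffMap (resA A σ hσ) b) ≠ 0
    rw [red_coeffMap (ψ := (resAut A σ hσ : ResidueField A →+* ResidueField A))
      (fun y => residue_resA A σ hσ y) b]
    exact (map_ne_zero _).2 hb0
  · show coeffMap (σ : L →+* L) x * coeffMap A.subtype (coeffMap (resA A σ hσ) b) =
      coeffMap A.subtype (coeffMap (resA A σ hσ) a)
    rw [coeffMap_subtype_resA, coeffMap_subtype_resA, ← map_mul]
    exact congrArg _ hx

/-- the Gauss valuation ring is stable under the decomposition group -/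
theorem smul_mem_Rw (σ : L ≃ₐ[ℚ] L) (hσ : σ ∈ A.decompositionSubgroup ℚ)
    (x : laurentBaseChange L F₀) (hx : x ∈ Rw A (laurentBaseChange L F₀) hGF) :
    arithmeticGalois F₀ σ • x ∈ Rw A (laurentBaseChange L F₀) hGF := by
  obtain ⟨a, b, h⟩ := hx
  exact ⟨_, _, isFrac_coeffMap A F₀ σ hσ h⟩

/-- **reduction commutes with the decomposition group**: `red (σ x) = σ̄ (red x)`,
coefficientwise. -/
theorem redL_smul (σ : L ≃ₐ[ℚ] L) (hσ : σ ∈ A.decompositionSubgroup ℚ)
    (x : laurentBaseChange L F₀) (hx : x ∈ Rw A (laurentBaseChange L F₀) hGF) :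
    redL A (laurentBaseChange L F₀) hGF ⟨arithmeticGalois F₀ σ • x, smul_mem_Rw A F₀ hGF σ hσ x hx⟩ =
      coeffMap (resAut A σ hσ : ResidueField A →+* ResidueField A)
        (redL A (laurentBaseChange L F₀) hGF ⟨x, hx⟩) := by
  have hx' := hx
  obtain ⟨a, b, h⟩ := hx'
  have h' := isFrac_coeffMap A F₀ σ hσ h
  rw [redL_eq (x := ⟨arithmeticGalois F₀ σ • x, smul_mem_Rw A F₀ hGF σ hσ x hx⟩) h',
    redL_eq (x := ⟨x, hx⟩) h, map_div₀]
  exact congrArg₂ (· / ·)
    (red_coeffMap (ψ := (resAut A σ hσ : ResidueField A →+* ResidueField A))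
      (fun y => residue_resA A σ hσ y) a)
    (red_coeffMap (ψ := (resAut A σ hσ : ResidueField A →+* ResidueField A))
      (fun y => residue_resA A σ hσ y) b)

theorem inv_mem_decomp {σ : L ≃ₐ[ℚ] L} (hσ : σ ∈ A.decompositionSubgroup ℚ) :
    σ⁻¹ ∈ A.decompositionSubgroup ℚ := inv_mem hσ

theorem mem_Rw_of_smul_mem (σ : L ≃ₐ[ℚ] L) (hσ : σ ∈ A.decompositionSubgroup ℚ)
    (x : laurentBaseChange L F₀)
    (hx : arithmeticGalois F₀ σ • x ∈ Rw A (laurentBaseChange L F₀) hGF) :
    x ∈ Rw A (laurentBaseChange L F₀) hGF := by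
  have h := smul_mem_Rw A F₀ hGF σ⁻¹ (inv_mem_decomp A hσ) _ hx
  rwa [map_inv, inv_smul_smul] at h

/-- the coefficientwise action of `σ̄` preserves the residue field of the Gauss valuation -/
theorem coeffMap_mem_Fres (σ : L ≃ₐ[ℚ] L) (hσ : σ ∈ A.decompositionSubgroup ℚ)
    {y : LaurentSeries (ResidueField A)} (hy : y ∈ Fres A (laurentBaseChange L F₀) hGF) :
    coeffMap (resAut A σ hσ : ResidueField A →+* ResidueField A) y ∈
      Fres A (laurentBaseChange L F₀) hGF := by
  obtain ⟨x, rfl⟩ := hy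
  exact ⟨⟨arithmeticGalois F₀ σ • (x : laurentBaseChange L F₀),
    smul_mem_Rw A F₀ hGF σ hσ _ x.2⟩, redL_smul A F₀ hGF σ hσ _ x.2⟩

/-- the coefficientwise action of `σ̄` on the residue field of the Gauss valuation, as a ring hom -/
def fresHom (σ : L ≃ₐ[ℚ] L) (hσ : σ ∈ A.decompositionSubgroup ℚ) :
    Fres A (laurentBaseChange L F₀) hGF →+* Fres A (laurentBaseChange L F₀) hGF where
  toFun y := ⟨coeffMap (resAut A σ hσ : ResidueField A →+* ResidueField A) y,
    coeffMap_mem_Fres A F₀ hGF σ hσ y.2⟩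
  map_one' := Subtype.ext (map_one _)
  map_mul' _ _ := Subtype.ext (map_mul _ _ _)
  map_zero' := Subtype.ext (map_zero _)
  map_add' _ _ := Subtype.ext (map_add _ _ _)

theorem coe_fresHom (σ : L ≃ₐ[ℚ] L) (hσ : σ ∈ A.decompositionSubgroup ℚ)
    (y : Fres A (laurentBaseChange L F₀) hGF) :
    ((fresHom A F₀ hGF σ hσ y : Fres A (laurentBaseChange L F₀) hGF) :
      LaurentSeries (ResidueField A)) =
      coeffMap (resAut A σ hσ : ResidueField A →+* ResidueField A) y := rfl

theorem fresHom_red (σ : L ≃ₐ[ℚ] L) (hσ : σ ∈ A.decompositionSubgroup ℚ)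
    (x : laurentBaseChange L F₀) (hx : x ∈ Rw A (laurentBaseChange L F₀) hGF) :
    fresHom A F₀ hGF σ hσ (red A (laurentBaseChange L F₀) hGF ⟨x, hx⟩) =
      red A (laurentBaseChange L F₀) hGF
        ⟨arithmeticGalois F₀ σ • x, smul_mem_Rw A F₀ hGF σ hσ x hx⟩ :=
  Subtype.ext (redL_smul A F₀ hGF σ hσ x hx).symm

theorem fresHom_bijective (σ : L ≃ₐ[ℚ] L) (hσ : σ ∈ A.decompositionSubgroup ℚ) :
    Function.Bijective (fresHom A F₀ hGF σ hσ) := by
  refine ⟨(fresHom A F₀ hGF σ hσ).injective, fun y => ?_⟩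
  obtain ⟨x, rfl⟩ := red_surjective A (laurentBaseChange L F₀) hGF y
  refine ⟨red A (laurentBaseChange L F₀) hGF
    ⟨arithmeticGalois F₀ σ⁻¹ • (x : laurentBaseChange L F₀),
      smul_mem_Rw A F₀ hGF σ⁻¹ (inv_mem_decomp A hσ) _ x.2⟩, ?_⟩
  rw [fresHom_red]
  congr 1
  apply Subtype.ext
  show arithmeticGalois F₀ σ • arithmeticGalois F₀ σ⁻¹ • (x : laurentBaseChange L F₀) = x
  rw [map_inv, smul_inv_smul]

/-- the induced semilinear automorphism of the special fibre -/
def fresAut (σ : L ≃ₐ[ℚ] L) (hσ : σ ∈ A.decompositionSubgroup ℚ) :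
    SemilinearAut (ResidueField A) (Fres A (laurentBaseChange L F₀) hGF) :=
  ⟨(RingEquiv.ofBijective (fresHom A F₀ hGF σ hσ) (fresHom_bijective A F₀ hGF σ hσ),
      resAut A σ hσ), fun r => by
    apply Subtype.ext
    show coeffMap (resAut A σ hσ : ResidueField A →+* ResidueField A)
        (algebraMap (ResidueField A) (LaurentSeries (ResidueField A)) r) = _
    rw [coeffMap_algebraMap]
    rfl⟩

theorem fresAut_smul (σ : L ≃ₐ[ℚ] L) (hσ : σ ∈ A.decompositionSubgroup ℚ)
    (y : Fres A (laurentBaseChange L F₀) hGF) :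
    fresAut A F₀ hGF σ hσ • y = fresHom A F₀ hGF σ hσ y := rfl

/-- **the decomposition group acts on the Gauss reduction datum.** -/
def decompRedAut (σ : L ≃ₐ[ℚ] L) (hσ : σ ∈ A.decompositionSubgroup ℚ) :
    RedAut (redData A (laurentBaseChange L F₀) hGF) where
  σ := arithmeticGalois F₀ σ
  b := fresAut A F₀ hGF σ hσ
  mem_Rw := smul_mem_Rw A F₀ hGF σ hσ
  mem_Rw' := mem_Rw_of_smul_mem A F₀ hGF σ hσ
  red_smul x hx := (fresHom_red A F₀ hGF σ hσ x hx).symm

@[simp] theorem decompRedAut_σ (σ : L ≃ₐ[ℚ] L) (hσ : σ ∈ A.decompositionSubgroup ℚ) :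
    (decompRedAut A F₀ hGF σ hσ).σ = arithmeticGalois F₀ σ := rfl

/-- inertia acts trivially on the special fibre -/
theorem fresAut_of_inertia {σ : L ≃ₐ[ℚ] L} (hσ : σ ∈ A.inertiaSubgroupIn ℚ) :
    fresAut A F₀ hGF σ
      (Fermat.Agent.S05.mem_decompositionSubgroup_of_mem_inertiaSubgroupIn hσ) = 1 := by
  have hψ : (resAut A σ (Fermat.Agent.S05.mem_decompositionSubgroup_of_mem_inertiaSubgroupIn hσ) :
      ResidueField A →+* ResidueField A) = RingHom.id _ :=
    RingHom.ext fun r => resAut_of_inertia A hσ r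
  refine Subtype.ext (Prod.ext (RingEquiv.ext fun y => Subtype.ext ?_) (RingEquiv.ext fun r => ?_))
  · show coeffMap (resAut A σ _ : ResidueField A →+* ResidueField A)
      (y : LaurentSeries (ResidueField A)) = y
    rw [hψ, coeffMap_id]
  · exact resAut_of_inertia A hσ r

theorem decompRedAut_b_of_inertia {σ : L ≃ₐ[ℚ] L} (hσ : σ ∈ A.inertiaSubgroupIn ℚ) :
    (decompRedAut A F₀ hGF σ
      (Fermat.Agent.S05.mem_decompositionSubgroup_of_mem_inertiaSubgroupIn hσ)).b = 1 :=
  fresAut_of_inertia A F₀ hGF hσ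

variable {g c : ℤ}
variable [FiniteResidues L (laurentBaseChange L F₀)] [HasPrincipalDivisors L (laurentBaseChange L F₀)]
  [Nonempty (Place L (laurentBaseChange L F₀))]
variable [FiniteResidues (ResidueField A) (Fres A (laurentBaseChange L F₀) hGF)]
  [HasPrincipalDivisors (ResidueField A) (Fres A (laurentBaseChange L F₀) hGF)]
  [Nonempty (Place (ResidueField A) (Fres A (laurentBaseChange L F₀) hGF))]
variable [Infinite (ResidueField A)]

/-- the place reduction map is equivariant for the decomposition group -/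
theorem rOf_smul_of_decomp (H : LSpaceHyp (redData A (laurentBaseChange L F₀) hGF) g c)
    (σ : L ≃ₐ[ℚ] L) (hσ : σ ∈ A.decompositionSubgroup ℚ)
    (P : Place L (laurentBaseChange L F₀)) :
    rOf H (arithmeticGalois F₀ σ • P) = fresAut A F₀ hGF σ hσ • rOf H P :=
  (decompRedAut A F₀ hGF σ hσ).rOf_smul H P

/-- **inertia preserves every residue disc**: `r (σ P) = r P` for `σ` in the inertia group. -/
theorem rOf_smul_of_inertia (H : LSpaceHyp (redData A (laurentBaseChange L F₀) hGF) g c)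
    {σ : L ≃ₐ[ℚ] L} (hσ : σ ∈ A.inertiaSubgroupIn ℚ) (P : Place L (laurentBaseChange L F₀)) :
    rOf H (arithmeticGalois F₀ σ • P) = rOf H P := by
  rw [rOf_smul_of_decomp A F₀ hGF H σ
    (Fermat.Agent.S05.mem_decompositionSubgroup_of_mem_inertiaSubgroupIn hσ) P,
    fresAut_of_inertia A F₀ hGF hσ, one_smul]

end Generic

end Fermat.Agent.GH.Gal
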