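/-
GATE-H (S19) / node GAL, existence half, part (F2) (helper18): INERTIA-FIXED LIFTS in stable spaces.

`A | q` a valuation subring of `ℚ̄`, `q ∤ N`, `I = A.inertiaSubgroupIn ℚ` acting coefficientwise on
`F_N = ℚ̄(X₀(N))`.  For EVERY `I`-stable `ℚ̄`-subspace `V ≤ F_N` (e.g. `V = L(D)`, `D` an `I`-stable
divisor) every Gauss-integral `x ∈ V` has an `I`-FIXED Gauss-integral `x' ∈ V` with the SAME
reduction.  This is GATE-L's rational lift (`GL/Red/RatLiftGal.exists_rational_lift_of_stable`: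
Speiser + orthonormal bases over the unramified base `K₀ = ℚ̄^I`, helper96) with ORTH over `K₀`
for one valuation (`GL/Val/OrthK0.hasOrthoK0_single`, helper45); wild inertia is no problem.
-/
import Fermat.Agent.GL.Red.RatLiftK0
import Fermat.Agent.GL.Val.OrthK0
import Fermat.Agent.GH.Gal.DecompAct

set_option autoImplicit false
set_option linter.style.haveILetI false

noncomputable section

namespace Fermat.Agent.GH.Gal.FixedLift

open HahnSeries ModularCurve IsLocalRing AlgebraicCurve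
open Fermat.Agent.S24 Fermat.Agent.S24_helper62
open Fermat.Agent.GJ.J1 Fermat.Agent.GJ.J1.Val Fermat.Agent.GJ.FiniteLevel
open Fermat.Agent.GK.AL Fermat.Agent.GK.MultiVal
open Fermat.Agent.GL.Val.GaussK0 Fermat.Agent.GL.Val.SecondK0
open Fermat.Agent.GL.Local.InertiaField
open Fermat.Agent.GL.Coh.InvDescentFK Fermat.Agent.GL.Base.RatDescent
open Fermat.Agent.GL.RatLift Fermat.Agent.GL.RatLiftK0
open Fermat.Agent.Common_helper32

variable (A : ValuationSubring Qb) (N : ℕ) [NeZero N]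

/-- **inertia-fixed lifts in an inertia-stable subspace** (`galF` spelling). -/
theorem exists_fixed_lift_of_stable {q : ℕ} (hq : q.Prime) (hA : (q : Qb) ∈ A.nonunits)
    (hqN : ¬ q ∣ N) (V : Submodule Qb (FN N))
    (hV : ∀ τ ∈ A.inertiaSubgroupIn ℚ, ∀ v ∈ V, galF N τ v ∈ V)
    {x : FN N} (hx : x ∈ (redDataBar N A).Rw) (hxV : x ∈ V) :
    ∃ x' : FN N, x' ∈ V ∧ ∃ hx' : x' ∈ (redDataBar N A).Rw,
      (∀ τ ∈ A.inertiaSubgroupIn ℚ, galF N τ x' = x') ∧
        (redDataBar N A).red ⟨x', hx'⟩ = (redDataBar N A).red ⟨x, hx⟩ := by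
  letI := inertiaAction A N
  have hnp : IsNormPair A (redDataBar N A).Rw.toSubring (vrad (redDataBar N A).Rw) :=
    isNormPair_single (redDataBar N A).algebraMap_mem_iff'
  have ho := Fermat.Agent.GL.Val.OrthK0.hasOrthoK0_single A N hq hA hqN
  obtain ⟨x0, hx0B, hx0V, hx0I⟩ := exists_rational_lift_of_stable
    (ι0 := ι0 A) (ι := mapK0Bar A N) (mapK0Bar_smul A N) (hA0 A)
    (exists_R0_sub_mem_nonunits A hq hA)
    (B0 := (RwK0 A N).toSubring) (I0 := vrad (RwK0 A N))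
    (B := (redDataBar N A).Rw.toSubring) (I := vrad (redDataBar N A).Rw)
    (fun y => mem_Rw1K0_iff A N y)
    (fun y => by
      show y ∈ (RwK0 A N).nonunits ↔ mapK0Bar A N y ∈ (redDataBar N A).Rw.nonunits
      exact mem_nonunits_Rw1K0_iff A N y) hnp ho
    (H := ↥(A.inertiaSubgroupIn ℚ))
    (fun σ c => ⟨(σ : Qb ≃ₐ[ℚ] Qb) c, galF_algebraMap (σ : Qb ≃ₐ[ℚ] Qb) c⟩)
    (fun y hy => exists_mapK0Bar_of_fixed A N y fun σ hσ => hy ⟨σ, hσ⟩)
    (fun y => by
      obtain ⟨Y, h1, h2, h3, h4⟩ := exists_smooth N y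
      exact ⟨Y, h1, h2, fun σ z hz => h3 σ z hz, fun σ hσ => h4 σ hσ⟩)
    V (fun σ v hv => hV σ σ.2 v hv) hx hxV
  have hx' : mapK0Bar A N x0 ∈ (redDataBar N A).Rw := (mem_Rw1K0_iff A N x0).1 hx0B
  refine ⟨mapK0Bar A N x0, hx0V, hx', fun τ hτ => galF_mapK0Bar A N τ hτ x0, ?_⟩
  have hsub : (⟨x, hx⟩ : (redDataBar N A).Rw) - ⟨mapK0Bar A N x0, hx'⟩ ∈
      IsLocalRing.maximalIdeal (redDataBar N A).Rw := by
    rw [IsLocalRing.mem_maximalIdeal, mem_nonunits_iff]
    intro hu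
    have h1 : (redDataBar N A).Rw.valuation
        (((⟨x, hx⟩ : (redDataBar N A).Rw) - ⟨mapK0Bar A N x0, hx'⟩ : (redDataBar N A).Rw) : FN N)
          = 1 :=
      (ValuationSubring.valuation_eq_one_iff _ _).1 hu
    exact (ne_of_lt hx0I) h1
  have h0 := ((redDataBar N A).red_eq_zero_iff _).2 hsub
  rw [map_sub, sub_eq_zero] at h0
  exact h0.symm

/-- `galF` is the prelude arithmetic Galois action. -/
theorem galF_eq_smul (σ : Qb ≃ₐ[ℚ] Qb) (x : FN N) :
    galF N σ x = arithmeticGalois (modularFunctionFieldFull N) σ • x := rfl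

/-- **inertia-fixed lifts in `L(D)`**, `D` an inertia-stable divisor: every Gauss-integral
`x ∈ L(D)` has an inertia-fixed Gauss-integral `x' ∈ L(D)` with the same reduction. -/
theorem exists_inertia_fixed_lift {q : ℕ} (hq : q.Prime) (hA : (q : Qb) ∈ A.nonunits)
    (hqN : ¬ q ∣ N) (D : Divisor Qb (FN N))
    (hD : ∀ τ ∈ A.inertiaSubgroupIn ℚ,
      arithmeticGalois (modularFunctionFieldFull N) τ • D = D)
    {x : FN N} (hx : x ∈ (redDataBar N A).Rw) (hxD : x ∈ riemannRochSpace D) :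
    ∃ x' : FN N, x' ∈ riemannRochSpace D ∧ ∃ hx' : x' ∈ (redDataBar N A).Rw,
      (∀ τ ∈ A.inertiaSubgroupIn ℚ,
        arithmeticGalois (modularFunctionFieldFull N) τ • x' = x') ∧
        (redDataBar N A).red ⟨x', hx'⟩ = (redDataBar N A).red ⟨x, hx⟩ := by
  refine exists_fixed_lift_of_stable A N hq hA hqN (riemannRochSpace D) (fun τ hτ v hv => ?_)
    hx hxD
  rw [galF_eq_smul]
  have h := (Fermat.Agent.GH.Gal.smul_mem_riemannRochSpace_smul_iff
    (arithmeticGalois (modularFunctionFieldFull N) τ) D v).2 hv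
  rwa [hD τ hτ] at h

end Fermat.Agent.GH.Gal.FixedLift
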