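/-
GATE-H (S19) / node GAL, CHART TRANSPORT (helper72, second seat; on top of helper18's base layer
`GH/Gal/RedAut.lean`).

For `φ : RedAut R` (e.g. an element of the decomposition group):

* `finrank_riemannRochSpace_smul` : `l(g • D) = l(D)` for a semilinear automorphism `g`;
* `ChartPt.smul`, `Chart.smul`   : `φ` transports chart points and charts (`(φ 𝔠).Q i = φ.b • 𝔠.Q i`,
  centre `φ.σ • P_i`, parameter `φ.σ • t_i`);
* `IsCoord.smul`                 : **`σ ∘ T^𝔠 ∘ σ⁻¹ = T^{σ𝔠}`**, i.e.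
  `IsCoord 𝔠 ξ τ → IsCoord (φ 𝔠) (φ.σ • ξ) (σ_K ∘ τ)`;
* `IsCoord.smul_of_fixed`        : for a chart FIXED by `φ` (`φ.b • Q_i = Q_i`, `φ.σ • P_i = P_i`,
  `φ.σ • t_i = t_i`; e.g. `φ` in the inertia group and an inertia-fixed chart):
  `IsCoord 𝔠 ξ τ → IsCoord 𝔠 (φ.σ • ξ) (σ_K ∘ τ)`  (the coordinates are equivariant).
-/
import Mathlib
import Fermat.Agent.GH.Gal.RedAut

set_option autoImplicit false

noncomputable section

open AlgebraicCurve
open scoped Pointwise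

namespace Fermat.Agent.GH.Gal

open Fermat.Agent.RRh45 Fermat.Agent.GJ.S37MinDiv Fermat.Agent.GJ.J1 Fermat.Agent.GJ.S37LSpace
  Fermat.Agent.GJ.S37ROfSurj Fermat.Agent.GH

section Semilinear

variable {K F : Type*} [Field K] [Field F] [Algebra K F] (g : SemilinearAut K F)

/-- `f ↦ g • f` as an additive equivalence `L(D) ≃ L(g • D)`. -/
def rrSmulEquiv (D : Divisor K F) : riemannRochSpace D ≃+ riemannRochSpace (g • D) where
  toFun f := ⟨g • (f : F), (smul_mem_riemannRochSpace_smul_iff g D f).2 f.2⟩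
  invFun f := ⟨g⁻¹ • (f : F), by
    rw [← smul_mem_riemannRochSpace_smul_iff g D, smul_inv_smul]; exact f.2⟩
  left_inv f := by ext; simp
  right_inv f := by ext; simp
  map_add' f f' := by ext; simp [smul_add]

/-- `l(g • D) = l(D)`. -/
theorem finrank_riemannRochSpace_smul (D : Divisor K F) :
    Module.finrank K (riemannRochSpace (g • D)) = Module.finrank K (riemannRochSpace D) := by
  have h := rank_eq_of_equiv_equiv (SemilinearAut.baseAut g) (rrSmulEquiv g D)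
    (SemilinearAut.baseAut g).bijective (fun r m => by
      apply Subtype.ext
      change g • ((r • m : riemannRochSpace D) : F) = SemilinearAut.baseAut g r • (g • (m : F))
      rw [Submodule.coe_smul, Algebra.smul_def, Algebra.smul_def, smul_mul',
        SemilinearAut.smul_algebraMap])
  exact congrArg Cardinal.toNat h.symm

end Semilinear

/-! ### Transport of chart points, charts and coordinates under a `RedAut` -/

variable {K F k Ft : Type*} [Field K] [Field F] [Algebra K F] [Field k] [Field Ft] [Algebra k Ft]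
variable {R : RedData K F k Ft} {g c : ℤ}
variable [FiniteResidues K F] [HasPrincipalDivisors K F] [Nonempty (Place K F)]
variable [FiniteResidues k Ft] [HasPrincipalDivisors k Ft] [Nonempty (Place k Ft)]
variable [Infinite k]

namespace RedAut

variable (φ : RedAut R) {H : LSpaceHyp R g c}

/-- transport of a chart point: centre `σ • P`, parameter `σ • t`, over `b • Q`. -/
def chartPtSmul {Q : Place k Ft} (p : ChartPt H Q) : ChartPt H (φ.b • Q) where
  P := φ.σ • p.P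
  hP := (φ.mem_disc_smul_iff H Q p.P).2 p.hP
  t := φ.σ • p.t
  ht := (φ.mem_Odisc_smul_iff H Q p.t).2 p.ht
  ht0 := by
    have h := (φ.valueAt_smul_iff p.P p.t 0).2 p.ht0
    rwa [map_zero] at h
  hred := by
    have h1 : (⟨φ.σ • p.t, ((φ.mem_Odisc_smul_iff H Q p.t).2 p.ht).1⟩ : R.Rw) =
        ⟨φ.σ • p.t, φ.mem_Rw p.t p.ht.1⟩ := rfl
    rw [h1, φ.red_smul p.t p.ht.1, SemilinearAut.ord_smul]
    exact p.hred

@[simp] theorem chartPtSmul_P {Q : Place k Ft} (p : ChartPt H Q) :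
    (φ.chartPtSmul p).P = φ.σ • p.P := rfl

@[simp] theorem chartPtSmul_t {Q : Place k Ft} (p : ChartPt H Q) :
    (φ.chartPtSmul p).t = φ.σ • p.t := rfl

/-- transport of a chart. -/
def chartSmul {n : ℕ} (𝔠 : Chart H n) : Chart H n where
  Q i := φ.b • 𝔠.Q i
  hQ := fun i j hij => 𝔠.hQ ((MulAction.injective φ.b) hij)
  pt i := φ.chartPtSmul (𝔠.pt i)
  hns := by
    have h : (∑ i, Finsupp.single (φ.b • 𝔠.Q i) (1 : ℤ)) =
        φ.b • (∑ i, Finsupp.single (𝔠.Q i) (1 : ℤ)) := by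
      rw [Finset.smul_sum]
      exact Finset.sum_congr rfl fun i _ => (SemilinearAut.smul_single φ.b _ _).symm
    rw [h, finrank_riemannRochSpace_smul]
    exact 𝔠.hns

@[simp] theorem chartSmul_Q {n : ℕ} (𝔠 : Chart H n) (i : Fin n) :
    (φ.chartSmul 𝔠).Q i = φ.b • 𝔠.Q i := rfl

@[simp] theorem chartSmul_pt {n : ℕ} (𝔠 : Chart H n) (i : Fin n) :
    (φ.chartSmul 𝔠).pt i = φ.chartPtSmul (𝔠.pt i) := rfl

theorem chartSmul_D0 {n : ℕ} (𝔠 : Chart H n) : (φ.chartSmul 𝔠).D0 = φ.σ • 𝔠.D0 := by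
  unfold Chart.D0
  rw [Finset.smul_sum]
  exact Finset.sum_congr rfl fun i _ => (SemilinearAut.smul_single φ.σ _ _).symm

/-- **`σ ∘ T^𝔠 ∘ σ⁻¹ = T^{σ𝔠}`**: coordinates are transported. -/
theorem isCoord_smul {n : ℕ} {𝔠 : Chart H n} {ξ : Pic0 K F} {τ : Fin n → K}
    (h : IsCoord 𝔠 ξ τ) :
    IsCoord (φ.chartSmul 𝔠) (φ.σ • ξ) (fun i => SemilinearAut.baseAut φ.σ (τ i)) := by
  obtain ⟨Pτ, hdisc, hval, hdeg, hξ⟩ := h
  have hsum : (∑ i, Finsupp.single (φ.σ • Pτ i) (1 : ℤ)) - (φ.chartSmul 𝔠).D0 =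
      φ.σ • ((∑ i, Finsupp.single (Pτ i) (1 : ℤ)) - 𝔠.D0) := by
    rw [smul_sub, chartSmul_D0, Finset.smul_sum]
    congr 1
    exact Finset.sum_congr rfl fun i _ => (SemilinearAut.smul_single φ.σ _ _).symm
  refine ⟨fun i => φ.σ • Pτ i, fun i => (φ.mem_disc_smul_iff H _ _).2 (hdisc i),
    fun i => (φ.valueAt_smul_iff (Pτ i) (𝔠.pt i).t (τ i)).2 (hval i), ?_, ?_⟩
  · rw [hsum]
    exact SemilinearAut.smul_mem_degZero φ.σ hdeg
  · rw [← hξ, SemilinearAut.pic0_smul_mk]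
    exact congrArg Pic0.mk (Subtype.ext (by rw [SemilinearAut.coe_degZeroSMulHom]; exact hsum))

/-- a chart is FIXED by `φ`: special places, centres and parameters are fixed. -/
def FixesChart {n : ℕ} (𝔠 : Chart H n) : Prop :=
  ∀ i, φ.b • 𝔠.Q i = 𝔠.Q i ∧ φ.σ • (𝔠.pt i).P = (𝔠.pt i).P ∧ φ.σ • (𝔠.pt i).t = (𝔠.pt i).t

/-- coordinates in a FIXED chart are equivariant: `T (σ ξ) = σ (T ξ)`. -/
theorem isCoord_smul_of_fixed {n : ℕ} {𝔠 : Chart H n} (hfix : φ.FixesChart 𝔠) {ξ : Pic0 K F}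
    {τ : Fin n → K} (h : IsCoord 𝔠 ξ τ) :
    IsCoord 𝔠 (φ.σ • ξ) (fun i => SemilinearAut.baseAut φ.σ (τ i)) := by
  obtain ⟨Pτ, hdisc, hval, hdeg, hξ⟩ := φ.isCoord_smul h
  have hD0 : (φ.chartSmul 𝔠).D0 = 𝔠.D0 := by
    unfold Chart.D0
    exact Finset.sum_congr rfl fun i _ => by rw [chartSmul_pt, chartPtSmul_P, (hfix i).2.1]
  refine ⟨Pτ, fun i => ?_, fun i => ?_, ?_, ?_⟩
  · have := hdisc i
    rwa [chartSmul_Q, (hfix i).1] at this
  · have := hval i
    rwa [chartSmul_pt, chartPtSmul_t, (hfix i).2.2] at this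
  · rw [← hD0]; exact hdeg
  · rw [← hξ]
    exact congrArg Pic0.mk (Subtype.ext (by
      change (∑ i, Finsupp.single (Pτ i) (1 : ℤ)) - 𝔠.D0 =
        (∑ i, Finsupp.single (Pτ i) (1 : ℤ)) - (φ.chartSmul 𝔠).D0
      rw [hD0]))

/-- chart points over the same special place with the same centre and parameter are equal. -/
theorem chartPt_ext {Q : Place k Ft} {p p' : ChartPt H Q} (hP : p.P = p'.P) (ht : p.t = p'.t) :
    p = p' := by
  cases p; cases p'
  simp only at hP ht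
  subst hP; subst ht
  rfl

/-- charts with the same special places, centres and parameters are equal. -/
theorem chart_ext {n : ℕ} {𝔠 𝔠' : Chart H n} (hQ : ∀ i, 𝔠.Q i = 𝔠'.Q i)
    (hP : ∀ i, (𝔠.pt i).P = (𝔠'.pt i).P) (ht : ∀ i, (𝔠.pt i).t = (𝔠'.pt i).t) : 𝔠 = 𝔠' := by
  obtain ⟨Q, hQi, pt, hns⟩ := 𝔠
  obtain ⟨Q', hQi', pt', hns'⟩ := 𝔠'
  have hQQ : Q = Q' := funext hQ
  subst hQQ
  have hpt : pt = pt' := funext fun i => chartPt_ext (hP i) (ht i)
  subst hpt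
  rfl

/-- a chart FIXED by `φ` is fixed by the action on charts (`GalFrame.fix_inertia`). -/
theorem chartSmul_eq_self {n : ℕ} {𝔠 : Chart H n} (hfix : φ.FixesChart 𝔠) : φ.chartSmul 𝔠 = 𝔠 :=
  chart_ext (fun i => (hfix i).1) (fun i => (hfix i).2.1) (fun i => (hfix i).2.2)

/-- componentwise description of the transported chart, for `GalFrame.fix_smul`. -/
theorem fixesChart_chartSmul {n : ℕ} (ψ : RedAut R) {𝔠 : Chart H n}
    (hb : ∀ i, ψ.b • (φ.b • 𝔠.Q i) = φ.b • 𝔠.Q i)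
    (hP : ∀ i, ψ.σ • (φ.σ • (𝔠.pt i).P) = φ.σ • (𝔠.pt i).P)
    (ht : ∀ i, ψ.σ • (φ.σ • (𝔠.pt i).t) = φ.σ • (𝔠.pt i).t) :
    ψ.FixesChart (φ.chartSmul 𝔠) :=
  fun i => ⟨hb i, hP i, ht i⟩

end RedAut

end Fermat.Agent.GH.Gal
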