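/-
GATE-H (S19) / node GAL, existence half (helper26): INERTIA-FIXED PLACES, SHIFTS AND CHARTS.

Concrete modular frame `H : LSpaceHyp (redDataBar N A) g c`, `I = A.inertiaSubgroupIn ℚ` acting through
the prelude's `arithmeticGalois (modularFunctionFieldFull N)`.  Everything is stated against ONE binder

* `F2 N A` : inertia-fixed lifts inside `L(D)` for inertia-stable `D` (helper18's
  `GH/Gal/FixedLift.exists_inertia_fixed_lift`, signature of board 4774 VERBATIM).

Results (from `F2`, helper38's `GH/L/Param` exports, helper18's `rOf_smul_of_inertia`, the `G_ℚ`-fixed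
cusp `cuspInf N` of `GR/W/RatRep`, helper87's `GH/L3/ShiftFix`, helper72's `FixesChart`):

* `exists_fixed_chartPt`  : over every special place `Q ≠ r(∞)` a chart point with inertia-fixed centre
                            AND parameter;
* `exists_fixed_place`    : (F3) an inertia-fixed place in every residue disc;
* `exists_fixed_shift`    : `GalFrame.exists_fixed_shift`;
* `exists_fixed_chart`    : `GalFrame.exists_fix` — a chart fixed by every inertia element, in the
                            `RedAut.FixesChart` spelling of `GH/Gal/ChartTransport.lean`.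
-/
import Mathlib
import Fermat.Agent.GH.Gal.DecompAct
import Fermat.Agent.GH.Gal.ChartTransport
import Fermat.Agent.GH.L.Param
import Fermat.Agent.GH.L.Final
import Fermat.Agent.GH.L3.ShiftFix
import Fermat.Agent.GR.W.RatRep

set_option autoImplicit false

noncomputable section

open AlgebraicCurve ModularCurve

namespace Fermat.Agent.GH.Gal.FixPlace

open Fermat.Agent.RRh45 Fermat.Agent.GJ.S37MinDiv Fermat.Agent.GJ.J1 Fermat.Agent.GJ.J1.Val
  Fermat.Agent.GJ.S37LSpace Fermat.Agent.GJ.S37ROfSurj Fermat.Agent.GH Fermat.Agent.GH.Gal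
  Fermat.Agent.GR.W.RatRep

local notation "Qb" => AlgebraicClosure ℚ
local notation "GQ" => (AlgebraicClosure ℚ ≃ₐ[ℚ] AlgebraicClosure ℚ)

variable (N : ℕ) [NeZero N] (A : ValuationSubring Qb)

/-- the arithmetic Galois action on `ℚ̄(X₀(N))`. -/
abbrev gal (σ : GQ) : SemilinearAut Qb (modularFunctionFieldBar N) :=
  arithmeticGalois (modularFunctionFieldFull N) σ

/-- **binder (F2)**: inertia-fixed lifts inside `L(D)` for inertia-stable `D`. -/
def F2 : Prop :=
  ∀ D : Divisor Qb (modularFunctionFieldBar N),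
    (∀ τ ∈ A.inertiaSubgroupIn ℚ, gal N τ • D = D) →
    ∀ {x : modularFunctionFieldBar N} (hx : x ∈ (redDataBar N A).Rw), x ∈ riemannRochSpace D →
      ∃ x' ∈ riemannRochSpace D, ∃ hx' : x' ∈ (redDataBar N A).Rw,
        (∀ τ ∈ A.inertiaSubgroupIn ℚ, gal N τ • x' = x') ∧
          (redDataBar N A).red ⟨x', hx'⟩ = (redDataBar N A).red ⟨x, hx⟩

/-- multiples of the cusp `∞` are Galois-stable divisors. -/
theorem smul_single_cuspInf (σ : GQ) (m : ℤ) :
    gal N σ • (Finsupp.single (cuspInf N) m : Divisor Qb (modularFunctionFieldBar N)) =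
      Finsupp.single (cuspInf N) m := by
  rw [SemilinearAut.smul_single, galois_smul_cuspInf]

variable {N A}
variable {g c : ℤ}
variable [FiniteResidues Qb (modularFunctionFieldBar N)]
  [HasPrincipalDivisors Qb (modularFunctionFieldBar N)]
  [Nonempty (Place Qb (modularFunctionFieldBar N))]
variable [FiniteResidues (IsLocalRing.ResidueField A) (FresBar N A)]
  [HasPrincipalDivisors (IsLocalRing.ResidueField A) (FresBar N A)]
  [Nonempty (Place (IsLocalRing.ResidueField A) (FresBar N A))]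
variable [Infinite (IsLocalRing.ResidueField A)]

/-- inertia preserves every residue disc (helper18), in the `gal` spelling. -/
theorem rOf_gal_of_inertia (H : LSpaceHyp (redDataBar N A) g c) {τ : GQ}
    (hτ : τ ∈ A.inertiaSubgroupIn ℚ) (P : Place Qb (modularFunctionFieldBar N)) :
    rOf H (gal N τ • P) = rOf H P :=
  rOf_smul_of_inertia A (modularFunctionFieldFull N) (hasGaussFrac_bar N A) H hτ P

/-- the reduction datum automorphism of an inertia element. -/
abbrev inertiaRedAut {τ : GQ} (hτ : τ ∈ A.inertiaSubgroupIn ℚ) : RedAut (redDataBar N A) :=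
  decompRedAut A (modularFunctionFieldFull N) (hasGaussFrac_bar N A) τ
    (Fermat.Agent.S05.mem_decompositionSubgroup_of_mem_inertiaSubgroupIn hτ)

/-- **chart points with inertia-fixed centre and parameter** over every special place off `r(∞)`. -/
theorem exists_fixed_chartPt (hF2 : F2 N A) (H : LSpaceHyp (redDataBar N A) g c)
    {Q : Place (IsLocalRing.ResidueField A) (FresBar N A)} (hne : Q ≠ rOf H (cuspInf N)) :
    ∃ pt : ChartPt H Q, (∀ τ ∈ A.inertiaSubgroupIn ℚ, gal N τ • pt.P = pt.P) ∧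
      ∀ τ ∈ A.inertiaSubgroupIn ℚ, gal N τ • pt.t = pt.t := by
  obtain ⟨m, x, hxD, hord⟩ := L.exists_param_in_L H (cuspInf N) hne
  obtain ⟨x', hx'D, hx'w, hfix, hred⟩ :=
    hF2 (Finsupp.single (cuspInf N) (m : ℤ)) (fun τ _ => smul_single_cuspInf N τ m) x.2 hxD
  have hord' : Q.ord ((redDataBar N A).red ⟨x', hx'w⟩) = 1 := by
    rw [hred]; exact hord
  obtain ⟨pt, hpt⟩ := L.exists_chartPt_of_lift H hx'w hx'D hne hord'
  refine ⟨pt, fun τ hτ => ?_, fun τ hτ => by rw [hpt]; exact hfix τ hτ⟩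
  -- the centre is the unique zero of the fixed parameter on the disc
  have hdisc : gal N τ • pt.P ∈ disc H Q := by
    show rOf H (gal N τ • pt.P) = Q
    rw [rOf_gal_of_inertia H hτ]
    exact pt.hP
  have hval : ValueAt (gal N τ • pt.P) pt.t 0 := by
    have h1 := ((inertiaRedAut (N := N) hτ).valueAt_smul_iff pt.P pt.t 0).2 pt.ht0
    have h2 : (inertiaRedAut (N := N) hτ).σ • pt.t = pt.t := by
      rw [hpt]; exact hfix τ hτ
    rw [h2, map_zero] at h1
    exact h1
  exact L.centre_unique H pt.ht pt.hred hdisc pt.hP hval pt.ht0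

/-- **(F3)** an inertia-fixed place in every residue disc. -/
theorem exists_fixed_place (hF2 : F2 N A) (H : LSpaceHyp (redDataBar N A) g c)
    (Q : Place (IsLocalRing.ResidueField A) (FresBar N A)) :
    ∃ P ∈ disc H Q, ∀ τ ∈ A.inertiaSubgroupIn ℚ, gal N τ • P = P := by
  by_cases hQ : Q = rOf H (cuspInf N)
  · exact ⟨cuspInf N, hQ.symm, fun τ _ => galois_smul_cuspInf N τ⟩
  · obtain ⟨pt, hP, -⟩ := exists_fixed_chartPt hF2 H hQ
    exact ⟨pt.P, pt.hP, hP⟩

/-- **`GalFrame.exists_fixed_shift`** in the concrete frame. -/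
theorem exists_fixed_shift (hF2 : F2 N A) (H : LSpaceHyp (redDataBar N A) g c)
    (ξ : JZero N) :
    ∃ s : JZero N, (∀ τ ∈ A.inertiaSubgroupIn ℚ, τ • s = s) ∧ ξ - s ∈ KerRed H := by
  obtain ⟨sh, hsh, hker⟩ := L3.exists_fixed_shift_of_fixed_places H
    ((fun τ : GQ => gal N τ) '' (A.inertiaSubgroupIn ℚ : Set GQ))
    (fun Q => by
      obtain ⟨P, hP, hfix⟩ := exists_fixed_place hF2 H Q
      refine ⟨P, hP, ?_⟩
      rintro _ ⟨τ, hτ, rfl⟩
      exact hfix τ hτ) ξ
  exact ⟨sh, fun τ hτ => hsh _ ⟨τ, hτ, rfl⟩, hker⟩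

/-- **`GalFrame.exists_fix`** in the concrete frame: a chart whose special places, centres and
parameters are fixed by every inertia element. -/
theorem exists_fixed_chart (hF2 : F2 N A) (H : LSpaceHyp (redDataBar N A) g c) {n : ℕ}
    (hn : (n : ℤ) ≤ g) :
    ∃ 𝔠 : Chart H n, ∀ (τ : GQ) (hτ : τ ∈ A.inertiaSubgroupIn ℚ),
      (inertiaRedAut (N := N) hτ).FixesChart 𝔠 := by
  classical
  obtain ⟨𝔠, h𝔠⟩ := L.chartSupply_main H hn {rOf H (cuspInf N)}
  have hne : ∀ i, 𝔠.Q i ≠ rOf H (cuspInf N) := fun i h => h𝔠 i (by rw [h]; exact Finset.mem_singleton_self _)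
  choose pt hptP hptt using fun i => exists_fixed_chartPt hF2 H (hne i)
  refine ⟨⟨𝔠.Q, 𝔠.hQ, pt, 𝔠.hns⟩, fun τ hτ i => ⟨?_, hptP i τ hτ, hptt i τ hτ⟩⟩
  show (inertiaRedAut (N := N) hτ).b • 𝔠.Q i = 𝔠.Q i
  have hb : (inertiaRedAut (N := N) hτ).b = 1 :=
    fresAut_of_inertia A (modularFunctionFieldFull N) (hasGaussFrac_bar N A) hτ
  rw [hb, one_smul]

end Fermat.Agent.GH.Gal.FixPlace
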