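/-
GATE-H (S19) / node GAL, ASSEMBLY (helper18): the GAL contract `GalFrame` (GH/CoreAsm/GalFrame.lean)
in the concrete Gauss frame `redData A (laurentBaseChange L F₀) hGF` (for `L = ℚ̄`,
`F₀ = modularFunctionFieldFull N` this is `redDataBar N A`), with `Γ = L ≃ₐ[ℚ] L` acting through the
prelude action on `Pic0` and by evaluation on `L`, `D = A.decompositionSubgroup ℚ`,
`I = A.inertiaSubgroupIn ℚ`.

Inputs: the base layer (`RedAut`, `decompRedAut`, helper18), the chart transport (helper72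
`ChartTransport.lean`), fixed shifts from fixed places (helper87 `L3/ShiftFix.lean`), and the two
EXISTENCE binders (helper26 `FixPlace.lean` on top of `FixedLift.lean`):

* `hpl` : every residue disc contains an inertia-fixed place;
* `hch` : there is a chart whose centres and parameters are inertia-fixed.
-/
import Mathlib
import Fermat.Agent.GH.CoreAsm.GalFrame
import Fermat.Agent.GH.Gal.ChartTransport
import Fermat.Agent.GH.Gal.DecompAct
import Fermat.Agent.GH.L3.ShiftFix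

set_option autoImplicit false
set_option linter.unusedSectionVars false
set_option maxHeartbeats 1000000
set_option synthInstance.maxHeartbeats 400000

noncomputable section

open AlgebraicCurve ModularCurve IsLocalRing

namespace Fermat.Agent.GH.Gal.Frame

open Fermat.Agent.RRh45 Fermat.Agent.GJ.S37MinDiv Fermat.Agent.GJ.J1 Fermat.Agent.GJ.J1.Val
  Fermat.Agent.GJ.S37LSpace Fermat.Agent.GJ.S37ROfSurj Fermat.Agent.GH Fermat.Agent.GH.Gal

section Group

variable {L : Type*} [Field L] [Algebra ℚ L] (A : ValuationSubring L)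

/-- `I ≤ D`. -/
theorem inertia_le_decomp : A.inertiaSubgroupIn ℚ ≤ A.decompositionSubgroup ℚ :=
  fun _ h => Fermat.Agent.S05.mem_decompositionSubgroup_of_mem_inertiaSubgroupIn h

/-- the inertia group is normalised by the decomposition group. -/
theorem conj_mem_inertia {σ τ : L ≃ₐ[ℚ] L} (hσ : σ ∈ A.decompositionSubgroup ℚ)
    (hτ : τ ∈ A.inertiaSubgroupIn ℚ) : σ⁻¹ * τ * σ ∈ A.inertiaSubgroupIn ℚ := by
  obtain ⟨t, ht, rfl⟩ := hτ
  have hn : (A.inertiaSubgroup ℚ).Normal := by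
    unfold ValuationSubring.inertiaSubgroup
    infer_instance
  have h := hn.conj_mem t ht (⟨σ, hσ⟩ : A.decompositionSubgroup ℚ)⁻¹
  refine ⟨(⟨σ, hσ⟩ : A.decompositionSubgroup ℚ)⁻¹ * t * ((⟨σ, hσ⟩ : A.decompositionSubgroup ℚ)⁻¹)⁻¹,
    h, ?_⟩
  simp

end Group

section Abstract

variable {K F k Ft : Type*} [Field K] [Field F] [Algebra K F] [Field k] [Field Ft] [Algebra k Ft]
variable {R : RedData K F k Ft} {g c : ℤ}
variable [FiniteResidues K F] [HasPrincipalDivisors K F] [Nonempty (Place K F)]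
variable [FiniteResidues k Ft] [HasPrincipalDivisors k Ft] [Nonempty (Place k Ft)]
variable [Infinite k]

/-- an automorphism acting trivially on the special fibre moves classes inside `KerRed`. -/
theorem smul_sub_mem_kerRed (φ : RedAut R) (H : LSpaceHyp R g c) (hb : φ.b = 1) (ξ : Pic0 K F) :
    φ.σ • ξ - ξ ∈ KerRed H := by
  obtain ⟨D, rfl⟩ := Pic0.mk_surjective ξ
  refine ⟨SemilinearAut.degZeroSMulHom φ.σ D - D, ?_, ?_⟩
  · rw [SemilinearAut.pic0_smul_mk]
    rfl
  · have h1 := φ.mapDomain_rOf_smul H (D : Divisor K F)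
    rw [hb, one_smul] at h1
    rw [AddSubgroup.coe_sub, SemilinearAut.coe_degZeroSMulHom, Finsupp.mapDomain_sub, h1,
      sub_self]
    exact (Divisor.principal (K := k) (F := Ft)).zero_mem

end Abstract

section Generic

variable {L : Type} [Field L] [Algebra ℚ L] (A : ValuationSubring L)
variable (F₀ : IntermediateField ℚ (LaurentSeries ℚ))
variable (hGF : HasGaussFrac A (laurentBaseChange L F₀))
variable {g c : ℤ}
variable [FiniteResidues L (laurentBaseChange L F₀)] [HasPrincipalDivisors L (laurentBaseChange L F₀)]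
  [Nonempty (Place L (laurentBaseChange L F₀))]
variable [FiniteResidues (ResidueField A) (Fres A (laurentBaseChange L F₀) hGF)]
  [HasPrincipalDivisors (ResidueField A) (Fres A (laurentBaseChange L F₀) hGF)]
  [Nonempty (Place (ResidueField A) (Fres A (laurentBaseChange L F₀) hGF))]
variable [Infinite (ResidueField A)]
variable (H : LSpaceHyp (redData A (laurentBaseChange L F₀) hGF) g c) (n : ℕ)

/-- the action of `G_ℚ` on charts: transport for the decomposition group, junk elsewhere. -/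
def actC (σ : L ≃ₐ[ℚ] L) (𝔠 : Chart H n) : Chart H n :=
  open Classical in
  if hσ : σ ∈ A.decompositionSubgroup ℚ then (decompRedAut A F₀ hGF σ hσ).chartSmul 𝔠 else 𝔠

theorem actC_of_mem {σ : L ≃ₐ[ℚ] L} (hσ : σ ∈ A.decompositionSubgroup ℚ) (𝔠 : Chart H n) :
    actC A F₀ hGF H n σ 𝔠 = (decompRedAut A F₀ hGF σ hσ).chartSmul 𝔠 := by
  unfold actC
  rw [dif_pos hσ]

/-- a chart with inertia-fixed centres and parameters. -/
def Fix (𝔠 : Chart H n) : Prop :=
  ∀ τ ∈ A.inertiaSubgroupIn ℚ, ∀ i,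
    arithmeticGalois F₀ τ • (𝔠.pt i).P = (𝔠.pt i).P ∧
      arithmeticGalois F₀ τ • (𝔠.pt i).t = (𝔠.pt i).t

variable {A F₀ hGF H n}

theorem fixesChart_of_fix {𝔠 : Chart H n} (h𝔠 : Fix A F₀ hGF H n 𝔠) {τ : L ≃ₐ[ℚ] L}
    (hτ : τ ∈ A.inertiaSubgroupIn ℚ) :
    (decompRedAut A F₀ hGF τ (inertia_le_decomp A hτ)).FixesChart 𝔠 := fun i =>
  ⟨by rw [decompRedAut_b_of_inertia A F₀ hGF hτ, one_smul], (h𝔠 τ hτ i).1, (h𝔠 τ hτ i).2⟩

theorem smul_smul_eq_of_fixed {X : Type*} [MulAction (SemilinearAut L (laurentBaseChange L F₀)) X]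
    {σ τ : L ≃ₐ[ℚ] L} (x : X)
    (hx : arithmeticGalois F₀ (σ⁻¹ * τ * σ) • x = x) :
    arithmeticGalois F₀ τ • (arithmeticGalois F₀ σ • x) = arithmeticGalois F₀ σ • x := by
  have h1 : τ * σ = σ * (σ⁻¹ * τ * σ) := by group
  rw [← mul_smul, ← map_mul, h1, map_mul, mul_smul, hx]

theorem fix_actC {𝔠 : Chart H n} (h𝔠 : Fix A F₀ hGF H n 𝔠) {σ : L ≃ₐ[ℚ] L}
    (hσ : σ ∈ A.decompositionSubgroup ℚ) : Fix A F₀ hGF H n (actC A F₀ hGF H n σ 𝔠) := by
  intro τ hτ i
  rw [actC_of_mem A F₀ hGF H n hσ]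
  have hc := conj_mem_inertia A hσ hτ
  constructor
  · show arithmeticGalois F₀ τ • (arithmeticGalois F₀ σ • (𝔠.pt i).P) =
      arithmeticGalois F₀ σ • (𝔠.pt i).P
    exact smul_smul_eq_of_fixed (𝔠.pt i).P (h𝔠 _ hc i).1
  · show arithmeticGalois F₀ τ • (arithmeticGalois F₀ σ • (𝔠.pt i).t) =
      arithmeticGalois F₀ σ • (𝔠.pt i).t
    exact smul_smul_eq_of_fixed (𝔠.pt i).t (h𝔠 _ hc i).2

variable (A F₀ hGF H n)

/-- **the GAL contract in the Gauss frame**, from the two existence binders. -/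
def galFrame
    (hpl : ∀ Q : Place (ResidueField A) (Fres A (laurentBaseChange L F₀) hGF),
      ∃ P ∈ disc H Q, ∀ τ ∈ A.inertiaSubgroupIn ℚ, arithmeticGalois F₀ τ • P = P)
    (hch : ∃ 𝔠 : Chart H n, Fix A F₀ hGF H n 𝔠) :
    GalFrame H n (A.decompositionSubgroup ℚ) (A.inertiaSubgroupIn ℚ) where
  hID := inertia_le_decomp A
  hnorm := fun σ hσ τ hτ => conj_mem_inertia A hσ hτ
  ker_smul := fun σ hσ ξ hξ => (decompRedAut A F₀ hGF σ hσ).mem_kerRed_smul H hξ
  inertia_sub := fun τ hτ ξ =>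
    smul_sub_mem_kerRed (decompRedAut A F₀ hGF τ (inertia_le_decomp A hτ)) H
      (decompRedAut_b_of_inertia A F₀ hGF hτ) ξ
  actC := actC A F₀ hGF H n
  isCoord_smul := by
    intro σ hσ 𝔠 ξ τ h
    rw [actC_of_mem A F₀ hGF H n hσ]
    exact (decompRedAut A F₀ hGF σ hσ).isCoord_smul h
  Fix := Fix A F₀ hGF H n
  exists_fix := hch
  fix_inertia := by
    intro 𝔠 h𝔠 τ hτ
    rw [actC_of_mem A F₀ hGF H n (inertia_le_decomp A hτ)]
    exact (decompRedAut A F₀ hGF τ (inertia_le_decomp A hτ)).chartSmul_eq_self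
      (fixesChart_of_fix h𝔠 hτ)
  fix_smul := fun 𝔠 h𝔠 σ hσ => fix_actC h𝔠 hσ
  exists_fixed_shift := by
    intro ξ
    obtain ⟨sh, h1, h2⟩ := Fermat.Agent.GH.L3.exists_fixed_shift_of_fixed_places H
      {φ | ∃ τ ∈ A.inertiaSubgroupIn ℚ, φ = arithmeticGalois F₀ τ}
      (fun Q => by
        obtain ⟨P, hP, hfix⟩ := hpl Q
        exact ⟨P, hP, fun φ ⟨τ, hτ, hφ⟩ => by rw [hφ]; exact hfix τ hτ⟩) ξ
    exact ⟨sh, fun τ hτ => h1 _ ⟨τ, hτ, rfl⟩, h2⟩

end Generic

end Fermat.Agent.GH.Gal.Frame
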