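/-
GATE-H (S19) / node GAL, FINAL (helper18): `galNode ℓ : Top.GalNode ℓ` — the GAL binder of
`GH/Top/Plug.s19_of_nodes`, binder-free.

Assembly of: the base layer `RedAut` / `decompRedAut` (helper18), the chart transport
`ChartTransport` (helper72), the inertia-fixed lifts `FixedLift` (helper18, on GATE-L's rational lifts
helper96 + ORTH over the unramified base helper45), the inertia-fixed places, shifts and charts
`FixPlace` (helper26, on helper38's `GH/L/Param` and helper87's `GH/L3/ShiftFix`), and the frame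
assembly `Frame.galFrame`.
-/
import Mathlib
import Fermat.Agent.GH.Top.Plug
import Fermat.Agent.GH.Gal.Frame
import Fermat.Agent.GH.Gal.FixPlace
import Fermat.Agent.GH.Gal.FixedLift

set_option autoImplicit false
set_option linter.unusedSectionVars false
set_option linter.unusedVariables false
set_option synthInstance.maxHeartbeats 400000
set_option maxHeartbeats 1000000

noncomputable section

open AlgebraicCurve ModularCurve

namespace Fermat.Agent.GH.Gal.Node

open Fermat.Agent.RRh45 Fermat.Agent.GJ.S37MinDiv Fermat.Agent.GJ.J1 Fermat.Agent.GJ.J1.Val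
  Fermat.Agent.GJ.S37LSpace Fermat.Agent.GJ.S37ROfSurj Fermat.Agent.GH Fermat.Agent.GH.Gal
  Fermat.Agent.GH.Inst Fermat.Agent.GH.Top

local notation "Qb" => AlgebraicClosure ℚ
local notation "GQ" => (AlgebraicClosure ℚ ≃ₐ[ℚ] AlgebraicClosure ℚ)

/-- the binder (F2) of `FixPlace.lean` is `FixedLift.exists_inertia_fixed_lift`. -/
theorem f2 (N : ℕ) [NeZero N] (A : ValuationSubring Qb) {ℓ : ℕ} (hℓ : ℓ.Prime)
    (hA : A.LiesOverPrime ℓ) (hℓN : ¬ ℓ ∣ N) : FixPlace.F2 N A :=
  fun D hD _ hx hxD =>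
    FixedLift.exists_inertia_fixed_lift A N hℓ hA hℓN D hD hx hxD

/-- **node GAL is a theorem.** -/
theorem galNode (ℓ : ℕ) [Fact ℓ.Prime] : GalNode ℓ := by
  intro N _ A hA hℓN _ _ g c H n hn
  have hℓ : ℓ.Prime := Fact.out
  have := finiteResidues_bar N
  have := finiteResidues_fresBar N A
  have := hasPrincipalDivisors_fresBar N A
  have := nonempty_place_fresBar N A
  have := infinite_kA A
  have hF2 := f2 N A hℓ hA hℓN
  obtain ⟨𝔠, h𝔠⟩ := FixPlace.exists_fixed_chart hF2 H hn.le
  exact ⟨Frame.galFrame A (modularFunctionFieldFull N) (hasGaussFrac_bar N A) H n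
    (fun Q => FixPlace.exists_fixed_place hF2 H Q)
    ⟨𝔠, fun τ hτ i => ⟨(h𝔠 τ hτ i).2.1, (h𝔠 τ hτ i).2.2⟩⟩⟩

end Fermat.Agent.GH.Gal.Node
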