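/-
GATE-H (S19) / node GAL, existence half (helper26): an ultrametric lemma (Mathlib only).

* `valuation_le_sum_of_injective` : in a finite sum whose NONZERO terms have pairwise distinct
  valuations, every term is bounded by the sum: `v (w i) ≤ v (∑ j, w j)`;
* `eq_zero_of_sum_eq_zero_of_injective` : such a sum vanishes only if every term does.
-/
import Mathlib

set_option autoImplicit false

namespace Fermat.Agent.GH.Gal.FixVal

variable {Ω Γ₀ : Type*} [Field Ω] [LinearOrderedCommGroupWithZero Γ₀] (v : Valuation Ω Γ₀)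

/-- if the nonzero terms of a finite sum have pairwise distinct valuations, every term is bounded
by the sum. -/
theorem valuation_le_sum_of_injective {ι : Type*} [Fintype ι] (w : ι → Ω)
    (hinj : ∀ i j, w i ≠ 0 → v (w i) = v (w j) → i = j) (i : ι) :
    v (w i) ≤ v (∑ j, w j) := by
  classical
  obtain ⟨i₀, -, hmax⟩ := Finset.exists_max_image Finset.univ (fun j => v (w j)) ⟨i, Finset.mem_univ i⟩
  by_cases h0 : w i₀ = 0
  · have hi : v (w i) ≤ 0 := by
      have := hmax i (Finset.mem_univ i)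
      rwa [h0, map_zero] at this
    exact le_trans hi zero_le
  · have hv0 : v (w i₀) ≠ 0 := (Valuation.ne_zero_iff v).mpr h0
    have hlt : ∀ j ∈ Finset.univ.erase i₀, v (w j) < v (w i₀) := by
      intro j hj
      have hne : j ≠ i₀ := Finset.ne_of_mem_erase hj
      refine lt_of_le_of_ne (hmax j (Finset.mem_univ j)) fun heq => ?_
      exact hne (hinj i₀ j h0 heq.symm).symm
    have hrest : v (∑ j ∈ Finset.univ.erase i₀, w j) < v (w i₀) :=
      Valuation.map_sum_lt v hv0 hlt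
    have hsum : ∑ j, w j = w i₀ + ∑ j ∈ Finset.univ.erase i₀, w j :=
      (Finset.add_sum_erase Finset.univ w (Finset.mem_univ i₀)).symm
    have hval : v (∑ j, w j) = v (w i₀) := by
      rw [hsum]
      exact Valuation.map_add_eq_of_lt_left v hrest
    rw [hval]
    exact hmax i (Finset.mem_univ i)

/-- a finite sum whose nonzero terms have pairwise distinct valuations vanishes only if every term
does. -/
theorem eq_zero_of_sum_eq_zero_of_injective {ι : Type*} [Fintype ι] (w : ι → Ω)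
    (hinj : ∀ i j, w i ≠ 0 → v (w i) = v (w j) → i = j) (hsum : ∑ j, w j = 0) (i : ι) :
    w i = 0 := by
  have h := valuation_le_sum_of_injective v w hinj i
  rw [hsum, map_zero] at h
  exact (Valuation.zero_iff v).mp (le_antisymm h zero_le)

/-- **distinct cosets**: if `v l = v ϖ ^ e` with `0 < v ϖ < 1`, and `z, z'` have values in `(v l)^ℤ`,
then `z ϖ^i` and `z' ϖ^j` (`i, j < e`) have the same value only if `i = j`. -/
theorem index_eq_of_valuation_eq {ϖ l : Ω} {e : ℕ} (hϖ0 : v ϖ ≠ 0) (hϖ1 : v ϖ < 1)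
    (hval : v l = v ϖ ^ e) {z z' : Ω} {i j : ℕ} (hi : i < e) (hj : j < e)
    (hz : ∃ m : ℤ, v z = v l ^ m) (hz' : ∃ m : ℤ, v z' = v l ^ m)
    (h : v (z * ϖ ^ i) = v (z' * ϖ ^ j)) : i = j := by
  obtain ⟨m, hm⟩ := hz
  obtain ⟨m', hm'⟩ := hz'
  have h1 : v (z * ϖ ^ i) = v ϖ ^ ((e : ℤ) * m + i) := by
    rw [map_mul, map_pow, hm, hval, zpow_add₀ hϖ0, zpow_mul, zpow_natCast, zpow_natCast]
  have h2 : v (z' * ϖ ^ j) = v ϖ ^ ((e : ℤ) * m' + j) := by
    rw [map_mul, map_pow, hm', hval, zpow_add₀ hϖ0, zpow_mul, zpow_natCast, zpow_natCast]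
  rw [h1, h2] at h
  have h3 : (e : ℤ) * m + i = (e : ℤ) * m' + j :=
    (zpow_right_strictAnti₀ (zero_lt_iff.2 hϖ0) hϖ1).injective h
  have h4 : ((e : ℤ) * m + i) % e = ((e : ℤ) * m' + j) % e := by rw [h3]
  rw [add_comm, Int.add_mul_emod_self_left, add_comm ((e : ℤ) * m'), Int.add_mul_emod_self_left,
    Int.emod_eq_of_lt (by positivity) (by exact_mod_cast hi),
    Int.emod_eq_of_lt (by positivity) (by exact_mod_cast hj)] at h4
  exact_mod_cast h4

/-- the value of `z ϖ^i`, `0 < i < e`, `v z ∈ (v l)^ℤ`, is never `1`. -/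
theorem valuation_mul_pow_ne_one {ϖ l : Ω} {e : ℕ} (hϖ0 : v ϖ ≠ 0) (hϖ1 : v ϖ < 1)
    (hval : v l = v ϖ ^ e) {z : Ω} {i : ℕ} (hi0 : 0 < i) (hi : i < e)
    (hz : ∃ m : ℤ, v z = v l ^ m) : v (z * ϖ ^ i) ≠ 1 := by
  intro h
  have h1 : (1 : Ω) * ϖ ^ 0 = 1 := by simp
  have h2 : v (z * ϖ ^ i) = v ((1 : Ω) * ϖ ^ 0) := by rw [h, h1, map_one]
  have := index_eq_of_valuation_eq v hϖ0 hϖ1 hval hi (lt_trans hi0 hi) hz
    ⟨0, by rw [map_one, zpow_zero]⟩ h2
  omega

end Fermat.Agent.GH.Gal.FixVal
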