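/-
GATE-H (S19) / node GAL, existence half (helper26): FINITE-LEVEL COORDINATES over the inertia field.

`A` a valuation subring of `ℚ̄` over `p`, `U` an open normal subgroup of `G_ℚ`.  From the henselian
model `GP/Flat/DvrInst` (`O = A ∩ ℚ̄^{D_A ∩ U} = O₀[π]`, `O₀ = O^{I_A}`):

* `LevelDatum A p U` : a uniformiser `ϖ` with `v(p) = v(ϖ)^e`, inertia elements `τ_0, …, τ_{e-1}`
  with pairwise distinct `τ_i ϖ` (one of them in `U`), such that every `y ∈ ℚ̄` fixed by `U` is
  `∑_{k<e} c_k ϖ^k` with `c_k` in the inertia field `ℚ̄^{I_A}`;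
* `exists_levelDatum` : it exists.
-/
import Mathlib
import Fermat.Agent.GP.Flat.DvrInst.Gen
import Fermat.Agent.GH.Inst.Arch
import Fermat.Agent.GH.Gal.FixVal

set_option autoImplicit false

open Fermat.Agent.Common_helper32 Fermat.Agent.GL.Local.InertiaField Fermat.Agent.GP.Flat.DvrInst

namespace Fermat.Agent.GH.Gal.FixCoord

/-- finite-level coordinates over the inertia field of `A`. -/
structure LevelDatum (A : ValuationSubring Qb) (p : ℕ) (U : Subgroup GQ) where
  /-- the ramification index of the level. -/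
  e : ℕ
  he : 0 < e
  /-- a uniformiser of the level. -/
  ϖ : Qb
  hϖ : ϖ ∈ A.nonunits
  hval : A.valuation (p : Qb) = A.valuation ϖ ^ e
  /-- inertia elements representing the inertia group of the level. -/
  τ : Fin e → GQ
  hτ : ∀ i, τ i ∈ A.inertiaSubgroupIn ℚ
  /-- the index of the trivial class. -/
  i₀ : Fin e
  hτ₀ : τ i₀ ∈ U
  hinj : Function.Injective fun i => τ i ϖ
  coord : ∀ y : Qb, (∀ σ ∈ U, σ y = y) →
    ∃ c : Fin e → Qb, (∀ k, c k ∈ inertiaField A) ∧ y = ∑ k, c k * ϖ ^ (k : ℕ)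

variable (A : ValuationSubring Qb) (U : Subgroup GQ) [hU : U.Normal]
variable {p : ℕ} (hp : p.Prime) (hA : (p : Qb) ∈ A.nonunits)

include hp hA in
/-- **finite-level coordinates exist** for every open normal subgroup. -/
theorem exists_levelDatum (hopen : IsOpen (U : Set GQ)) : Nonempty (LevelDatum A p U) := by
  classical
  have hfin : Finite (inertiaQuot A U) := finite_inertiaQuot A U hopen
  obtain ⟨π, ε₀, hirr, hpow, hval, hπ1⟩ := exists_irreducible_pow A U hp hA hopen
  set e := Nat.card (inertiaQuot A U) with he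
  have he0 : 0 < e := Nat.card_pos
  let φ : Fin e ≃ inertiaQuot A U := (Finite.equivFin (inertiaQuot A U)).symm
  have hp0 : (p : Qb) ≠ 0 := by exact_mod_cast hp.ne_zero
  refine ⟨⟨e, he0, toQb A U π, hπ1, hval, fun i => lift A U (φ i), fun i => lift_mem A U (φ i),
    φ.symm 1, ?_, ?_, ?_⟩⟩
  · -- the lift of the trivial class lies in `U`
    have h1 := mk_lift A U (φ (φ.symm 1))
    rw [Equiv.apply_symm_apply] at h1
    have h2 : (QuotientGroup.mk' U (lift A U (φ (φ.symm 1))) : GQ ⧸ U) = 1 := by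
      rw [Equiv.apply_symm_apply, h1]; rfl
    exact (QuotientGroup.eq_one_iff _).mp h2
  · -- distinct conjugates of the uniformiser
    intro i j hij
    have h1 : (φ i) • π = (φ j) • π := by
      apply Subtype.ext
      apply Subtype.ext
      exact hij
    have h2 : ((φ j)⁻¹ * φ i) • π = π := by
      rw [mul_smul, h1, ← mul_smul, inv_mul_cancel, one_smul]
    have h3 := eq_one_of_smul_unif_eq A U hp hA hopen hπ1 hval _ h2
    have h4 : φ i = φ j := by
      have := congrArg (fun g => φ j * g) h3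
      simpa using this
    exact φ.injective h4
  · -- coordinates
    intro y hy
    by_cases hy0 : y = 0
    · refine ⟨fun _ => 0, fun _ => zero_mem _, ?_⟩
      simp [hy0]
    have hyL : y ∈ locField A U := (mem_locField_iff A U y).mpr fun σ _ hσU => hy σ hσU
    obtain ⟨n, hn⟩ := Fermat.Agent.GH.Inst.harch A hp hA (p : Qb) y⁻¹
      ((A.mem_nonunits_iff).mp hA) (inv_ne_zero hy0)
    have hpL : ((p : Qb) ^ n) ∈ locField A U := pow_mem (natCast_mem _ p) n
    have hzL : (p : Qb) ^ n * y ∈ locField A U := mul_mem hpL hyL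
    have hzA : (p : Qb) ^ n * y ∈ A := by
      rw [← A.valuation_le_one_iff, map_mul, map_pow]
      have hvy : A.valuation y ≠ 0 := (Valuation.ne_zero_iff _).mpr hy0
      have h1 : A.valuation (p : Qb) ^ n ≤ (A.valuation y)⁻¹ := by
        simpa [map_inv₀] using hn
      calc A.valuation (p : Qb) ^ n * A.valuation y ≤ (A.valuation y)⁻¹ * A.valuation y :=
            mul_le_mul' h1 le_rfl
        _ = 1 := inv_mul_cancel₀ hvy
    let x : locRing A U := ⟨⟨(p : Qb) ^ n * y, hzL⟩, hzA⟩
    obtain ⟨a, ha, hx⟩ := exists_coord_locRing A U hp hA hopen hπ1 hval x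
    have h1 : toQb A U x = ∑ k : Fin e, toQb A U (a k) * toQb A U π ^ (k : ℕ) := by
      rw [hx]
      show ιO A U _ = _
      rw [map_sum]
      refine Finset.sum_congr rfl fun k _ => ?_
      rw [map_mul, map_pow]
      rfl
    have hpn0 : (p : Qb) ^ n ≠ 0 := pow_ne_zero _ hp0
    refine ⟨fun k => toQb A U (a k) / (p : Qb) ^ n, fun k => ?_, ?_⟩
    · exact div_mem (toQb_mem_inertiaField A U (ha k)) (pow_mem (natCast_mem _ p) n)
    · have h2 : (p : Qb) ^ n * y = ∑ k : Fin e, toQb A U (a k) * toQb A U π ^ (k : ℕ) := h1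
      have h3 : y = (∑ k : Fin e, toQb A U (a k) * toQb A U π ^ (k : ℕ)) / (p : Qb) ^ n := by
        rw [← h2, mul_div_cancel_left₀ _ hpn0]
      rw [h3, Finset.sum_div]
      refine Finset.sum_congr rfl fun k _ => ?_
      ring

theorem pow_eq_zero_iff_of_pos_aux {x : Qb} {n : ℕ} (h : x ^ n = 0) : x = 0 :=
  pow_eq_zero_iff (fun hn => by rw [hn, pow_zero] at h; exact one_ne_zero h) |>.mp h

namespace LevelDatum

variable {A} {U} (D : LevelDatum A p U)

omit hU in
include hp in
theorem valuation_ϖ_ne_zero : A.valuation D.ϖ ≠ 0 := by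
  intro h
  have hp0 : (p : Qb) ≠ 0 := by exact_mod_cast hp.ne_zero
  have h1 : A.valuation (p : Qb) ≠ 0 := (Valuation.ne_zero_iff _).mpr hp0
  rw [D.hval, h, zero_pow (Nat.pos_iff_ne_zero.mp D.he)] at h1
  exact h1 rfl

omit hU in
include hp in
theorem ϖ_ne_zero : D.ϖ ≠ 0 := (Valuation.ne_zero_iff _).mp (D.valuation_ϖ_ne_zero hp)

omit hU in
theorem valuation_ϖ_lt_one : A.valuation D.ϖ < 1 := (A.mem_nonunits_iff).mp D.hϖ

omit hU in
include hp hA in
/-- **independence**: `1, ϖ, …, ϖ^{e-1}` are linearly independent over the inertia field. -/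
theorem coeff_eq_zero (c : Fin D.e → Qb) (hc : ∀ k, c k ∈ inertiaField A)
    (h : ∑ k, c k * D.ϖ ^ (k : ℕ) = 0) (k : Fin D.e) : c k = 0 := by
  have hϖ0 := D.valuation_ϖ_ne_zero hp
  have hw : c k * D.ϖ ^ (k : ℕ) = 0 := by
    refine FixVal.eq_zero_of_sum_eq_zero_of_injective A.valuation
      (fun k : Fin D.e => c k * D.ϖ ^ (k : ℕ)) ?_ h k
    intro i j hi hij
    have hci : c i ≠ 0 := left_ne_zero_of_mul hi
    have hcj : c j ≠ 0 := by
      intro h0
      have : A.valuation (c i * D.ϖ ^ (i : ℕ)) = 0 := by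
        rw [hij]; simp [h0]
      exact hi ((Valuation.zero_iff _).mp this)
    exact Fin.ext (FixVal.index_eq_of_valuation_eq A.valuation hϖ0 D.valuation_ϖ_lt_one D.hval
      i.2 j.2 (exists_valuation_eq_zpow_of_mem_inertiaField A hp hA (hc i) hci)
      (exists_valuation_eq_zpow_of_mem_inertiaField A hp hA (hc j) hcj) hij)
  rcases mul_eq_zero.mp hw with h0 | h0
  · exact h0
  · exact absurd (pow_eq_zero_iff_of_pos_aux h0) (D.ϖ_ne_zero hp)

omit hU in
/-- conjugating a coordinate expression by an inertia element moves only the uniformiser. -/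
theorem apply_sum {σ : GQ} (hσ : σ ∈ A.inertiaSubgroupIn ℚ) (c : Fin D.e → Qb)
    (hc : ∀ k, c k ∈ inertiaField A) :
    σ (∑ k, c k * D.ϖ ^ (k : ℕ)) = ∑ k, c k * (σ D.ϖ) ^ (k : ℕ) := by
  rw [map_sum]
  refine Finset.sum_congr rfl fun k _ => ?_
  rw [map_mul, map_pow, (mem_inertiaField_iff A (c k)).mp (hc k) σ hσ]

end LevelDatum

end Fermat.Agent.GH.Gal.FixCoord
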