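/-
GATE-H (S19) / node GAL, existence half, part (F1) (helper26).

Concrete modular frame `redDataBar N A` (`A` a valuation subring of `ℚ̄` above `ℓ ∤ N`), inertia group
`I = A.inertiaSubgroupIn ℚ` acting coefficientwise on `ℚ̄(X₀(N)) ⊆ ℚ̄((q))`.

* `IFixed A x`            : the Laurent series `x` is coefficientwise fixed by `I`;
* `HasFixedFrac N A y`    : `y = a~ / b~` with `a, b ∈ A((q)) ∩ ℚ̄(X₀(N))` coefficientwise `I`-fixed, `b~ ≠ 0`;
* `hasFixedFrac_of_mem_fullC` : every element of `k(j(q^d) : d ∣ N)` has such a presentation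
  (constants lift to `W = A ∩ ℚ̄^I`, which has the full residue field; the generators are rational);
* **`exists_fixed_lift`** : the reduction map of `redDataBar N A` is onto on `I`-fixed elements of the
  Gauss valuation ring.
-/
import Fermat.Agent.GJ.J1.Res.FresEq
import Fermat.Agent.GL.Local.InertiaFieldBase

set_option autoImplicit false

noncomputable section

namespace Fermat.Agent.GH.Gal.FixLift

open ModularCurve HahnSeries Fermat.Agent.GJ.J1.Val Fermat.Agent.GJ.J1.Res
open Fermat.Agent.Common_helper32 Fermat.Agent.GL.Local.InertiaField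

variable (N : ℕ) [NeZero N] (A : ValuationSubring Qb)

/-- the Laurent series `x` over `ℚ̄` is coefficientwise fixed by the inertia group of `A`. -/
def IFixed (x : LaurentSeries Qb) : Prop :=
  ∀ τ ∈ A.inertiaSubgroupIn ℚ, coeffMap ((τ : Qb ≃ₐ[ℚ] Qb) : Qb →+* Qb) x = x

variable {A}

theorem IFixed.zero : IFixed A 0 := fun _ _ => map_zero _

theorem IFixed.one : IFixed A 1 := fun _ _ => map_one _

theorem IFixed.add {x y : LaurentSeries Qb} (hx : IFixed A x) (hy : IFixed A y) :
    IFixed A (x + y) := fun τ hτ => by rw [map_add, hx τ hτ, hy τ hτ]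

theorem IFixed.mul {x y : LaurentSeries Qb} (hx : IFixed A x) (hy : IFixed A y) :
    IFixed A (x * y) := fun τ hτ => by rw [map_mul, hx τ hτ, hy τ hτ]

theorem IFixed.neg {x : LaurentSeries Qb} (hx : IFixed A x) : IFixed A (-x) :=
  fun τ hτ => by rw [map_neg, hx τ hτ]

theorem IFixed.inv {x : LaurentSeries Qb} (hx : IFixed A x) : IFixed A x⁻¹ :=
  fun τ hτ => by rw [map_inv₀, hx τ hτ]

theorem IFixed.div {x y : LaurentSeries Qb} (hx : IFixed A x) (hy : IFixed A y) :
    IFixed A (x / y) := by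
  rw [div_eq_mul_inv]
  exact hx.mul hy.inv

/-- a constant in the inertia field is fixed. -/
theorem IFixed.single {c : Qb} (hc : c ∈ inertiaField A) : IFixed A (HahnSeries.single 0 c) := by
  intro τ hτ
  rw [coeffMap_single]
  congr 1
  exact (mem_inertiaField_iff A c).mp hc τ hτ

/-- the generators `j(q^d)` are fixed (rational `q`-expansion). -/
theorem IFixed.gen (d : ℕ) [NeZero d] : IFixed A (emb A (qExpand A d (jqModC A))) := by
  intro τ hτ
  rw [emb, coeffMap_qExpand, coeffMap_jqModC, coeffMap_qExpand, coeffMap_jqModC]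

variable (A)

/-- `y = a~ / b~` with `a, b ∈ A((q)) ∩ ℚ̄(X₀(N))` coefficientwise `I`-fixed and `b~ ≠ 0`. -/
def HasFixedFrac (y : LaurentSeries (IsLocalRing.ResidueField A)) : Prop :=
  ∃ a b : LaurentSeries A, emb A a ∈ modularFunctionFieldBar N ∧
    emb A b ∈ modularFunctionFieldBar N ∧ rd A b ≠ 0 ∧ IFixed A (emb A a) ∧ IFixed A (emb A b) ∧
      y * rd A b = rd A a

variable {N A}

omit [NeZero N] in
theorem HasFixedFrac.add {y y' : LaurentSeries (IsLocalRing.ResidueField A)}
    (h : HasFixedFrac N A y) (h' : HasFixedFrac N A y') : HasFixedFrac N A (y + y') := by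
  obtain ⟨a, b, ha, hb, hb0, hfa, hfb, e⟩ := h
  obtain ⟨a', b', ha', hb', hb0', hfa', hfb', e'⟩ := h'
  refine ⟨a * b' + a' * b, b * b', ?_, ?_, ?_, ?_, ?_, ?_⟩
  · rw [map_add, map_mul, map_mul]
    exact add_mem (mul_mem ha hb') (mul_mem ha' hb)
  · rw [map_mul]; exact mul_mem hb hb'
  · rw [map_mul]; exact mul_ne_zero hb0 hb0'
  · rw [map_add, map_mul, map_mul]
    exact (hfa.mul hfb').add (hfa'.mul hfb)
  · rw [map_mul]; exact hfb.mul hfb'
  · rw [map_mul, map_add, map_mul, map_mul, ← e, ← e']; ring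

omit [NeZero N] in
theorem HasFixedFrac.mul {y y' : LaurentSeries (IsLocalRing.ResidueField A)}
    (h : HasFixedFrac N A y) (h' : HasFixedFrac N A y') : HasFixedFrac N A (y * y') := by
  obtain ⟨a, b, ha, hb, hb0, hfa, hfb, e⟩ := h
  obtain ⟨a', b', ha', hb', hb0', hfa', hfb', e'⟩ := h'
  refine ⟨a * a', b * b', ?_, ?_, ?_, ?_, ?_, ?_⟩
  · rw [map_mul]; exact mul_mem ha ha'
  · rw [map_mul]; exact mul_mem hb hb'
  · rw [map_mul]; exact mul_ne_zero hb0 hb0'
  · rw [map_mul]; exact hfa.mul hfa'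
  · rw [map_mul]; exact hfb.mul hfb'
  · rw [map_mul, map_mul, ← e, ← e']; ring

omit [NeZero N] in
theorem HasFixedFrac.inv {y : LaurentSeries (IsLocalRing.ResidueField A)}
    (h : HasFixedFrac N A y) : HasFixedFrac N A y⁻¹ := by
  by_cases hy : y = 0
  · subst hy
    rw [inv_zero]
    refine ⟨0, 1, ?_, ?_, ?_, ?_, ?_, ?_⟩
    · rw [map_zero]; exact zero_mem _
    · rw [map_one]; exact one_mem _
    · rw [map_one]; exact one_ne_zero
    · rw [map_zero]; exact IFixed.zero
    · rw [map_one]; exact IFixed.one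
    · rw [map_zero, zero_mul]
  · obtain ⟨a, b, ha, hb, hb0, hfa, hfb, e⟩ := h
    have ha0 : rd A a ≠ 0 := by
      rw [← e]; exact mul_ne_zero hy hb0
    refine ⟨b, a, hb, ha, ha0, hfb, hfa, ?_⟩
    rw [← e]
    field_simp

omit [NeZero N] in
theorem HasFixedFrac.gen {d : ℕ} [NeZero d] (hd : d ∣ N) :
    HasFixedFrac N A (qExpand (IsLocalRing.ResidueField A) d (jqModC (IsLocalRing.ResidueField A))) := by
  refine ⟨qExpand A d (jqModC A), 1, emb_gen_mem N A hd, ?_, ?_, IFixed.gen d, ?_, ?_⟩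
  · rw [map_one]; exact one_mem _
  · rw [map_one]; exact one_ne_zero
  · rw [map_one]; exact IFixed.one
  · rw [map_one, mul_one, rd, coeffMap_qExpand, coeffMap_jqModC]

omit [NeZero N] in
/-- constants of the residue field lift to `W = A ∩ ℚ̄^I`. -/
theorem HasFixedFrac.const {ℓ : ℕ} (hℓ : ℓ.Prime) (hA : (ℓ : Qb) ∈ A.nonunits)
    (r : IsLocalRing.ResidueField A) :
    HasFixedFrac N A (algebraMap (IsLocalRing.ResidueField A)
      (LaurentSeries (IsLocalRing.ResidueField A)) r) := by
  obtain ⟨c, rfl⟩ := IsLocalRing.residue_surjective r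
  obtain ⟨w, hw⟩ := exists_baseRing_sub_mem_nonunits A hℓ hA (c : Qb) c.2
  have hwA : ((w : inertiaField A) : Qb) ∈ A := w.2
  set w' : A := ⟨((w : inertiaField A) : Qb), hwA⟩ with hw'
  have hres : IsLocalRing.residue A c = IsLocalRing.residue A w' := by
    rw [← sub_eq_zero, ← map_sub, IsLocalRing.residue_eq_zero_iff]
    exact (ValuationSubring.coe_mem_nonunits_iff).mp (by simpa [hw'] using hw)
  refine ⟨HahnSeries.single 0 w', 1, ?_, ?_, ?_, ?_, ?_, ?_⟩
  · rw [emb_single]; exact single_mem _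
  · rw [map_one]; exact one_mem _
  · rw [map_one]; exact one_ne_zero
  · rw [emb_single]; exact IFixed.single (w : inertiaField A).2
  · rw [map_one]; exact IFixed.one
  · rw [map_one, mul_one, rd_single, algebraMap_laurentSeries_eq_single, hres]

omit [NeZero N] in
/-- every element of the special-fibre function field `k(j(q^d) : d ∣ N)` is `a~ / b~` with
`I`-fixed Gauss-integral `a, b`. -/
theorem hasFixedFrac_of_mem_fullC {ℓ : ℕ} (hℓ : ℓ.Prime) (hA : (ℓ : Qb) ∈ A.nonunits)
    {y : LaurentSeries (IsLocalRing.ResidueField A)}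
    (hy : y ∈ modularFunctionFieldFullC (IsLocalRing.ResidueField A) N) : HasFixedFrac N A y := by
  unfold modularFunctionFieldFullC at hy
  induction hy using IntermediateField.adjoin_induction with
  | mem x hx =>
    obtain ⟨d, hne, hd, rfl⟩ := hx
    exact HasFixedFrac.gen hd
  | algebraMap r => exact HasFixedFrac.const hℓ hA r
  | add x z _ _ hx hz => exact hx.add hz
  | inv x _ hx => exact hx.inv
  | mul x z _ _ hx hz => exact hx.mul hz

/-- **(F1)** the reduction map of the modular frame is onto on `I`-fixed Gauss-integral functions: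
every `y` of the residue field `FresBar N A` is the reduction of an element of the Gauss valuation
ring whose `q`-expansion is coefficientwise fixed by the inertia group of `A`. -/
theorem exists_fixed_lift {ℓ : ℕ} [Fact ℓ.Prime] (hℓN : ¬ ℓ ∣ N) (hA : A.LiesOverPrime ℓ)
    (y : FresBar N A) :
    ∃ x : RwBar N A, (redDataBar N A).red x = y ∧
      IFixed A (((x : modularFunctionFieldBar N) : LaurentSeries Qb)) := by
  have hy : (y : LaurentSeries (IsLocalRing.ResidueField A)) ∈
      modularFunctionFieldFullC (IsLocalRing.ResidueField A) N :=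
    FresBar_le_fullC N A hℓN hA y.2
  obtain ⟨a, b, ha, hb, hb0, hfa, hfb, e⟩ :=
    hasFixedFrac_of_mem_fullC (N := N) (Fact.out : ℓ.Prime) hA hy
  have hb0' : emb A b ≠ 0 := by
    intro h0
    apply hb0
    have : b = 0 := emb_injective A (by rw [h0, map_zero])
    rw [this, map_zero]
  have hfrac : IsFrac A (modularFunctionFieldBar N) (emb A a / emb A b) a b :=
    ⟨ha, hb, hb0, div_mul_cancel₀ _ hb0'⟩
  have hxF : emb A a / emb A b ∈ modularFunctionFieldBar N := div_mem ha hb
  have hxRw : (⟨emb A a / emb A b, hxF⟩ : modularFunctionFieldBar N) ∈ RwBar N A :=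
    (mem_Rw_iff (hGF := hasGaussFrac_bar N A)).mpr ⟨a, b, hfrac⟩
  refine ⟨⟨⟨emb A a / emb A b, hxF⟩, hxRw⟩, ?_, hfa.div hfb⟩
  have h1 : redL A (modularFunctionFieldBar N) (hasGaussFrac_bar N A)
      ⟨⟨emb A a / emb A b, hxF⟩, hxRw⟩ = (y : LaurentSeries (IsLocalRing.ResidueField A)) := by
    rw [redL_eq (x := ⟨⟨emb A a / emb A b, hxF⟩, hxRw⟩) hfrac, ← e, mul_div_cancel_right₀ _ hb0]
  exact Subtype.ext h1

/-- the same with the prelude action of `G_ℚ` on `ℚ̄(X₀(N))`. -/
theorem exists_fixed_lift' {ℓ : ℕ} [Fact ℓ.Prime] (hℓN : ¬ ℓ ∣ N) (hA : A.LiesOverPrime ℓ)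
    (y : FresBar N A) :
    ∃ x : RwBar N A, (redDataBar N A).red x = y ∧
      ∀ τ ∈ A.inertiaSubgroupIn ℚ,
        arithmeticGalois (modularFunctionFieldFull N) τ • (x : modularFunctionFieldBar N) = x := by
  obtain ⟨x, hx, hfix⟩ := exists_fixed_lift hℓN hA y
  exact ⟨x, hx, fun τ hτ => Subtype.ext (hfix τ hτ)⟩

end Fermat.Agent.GH.Gal.FixLift
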